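import Mathlib

/-!
# Row LT, tower T7 (helper756, OFF-MAIN): finite systems of representatives, abstract form

Mathlib only.  No holes, nothing assumed.

* `exists_prune756` : a finite set contains a subset of pairwise inequivalent elements which
  meets every class of the set.
* `exists_system_abs756` : in a group `Γ` with a subgroup given by a predicate `U`, if the
  relation `g⁻¹ u⁻¹ u' g ∈ U` on `U` is implied by the equality of an invariant with values in a
  finite type, then `U g U / U` has a finite system of representatives (shape of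
  `T7.IsDblCosetSystem`).
-/

set_option autoImplicit false

namespace Fermat.Agent.LT.T7.H756

/-- A finite set contains a subset of pairwise inequivalent elements which meets every class of
the set. -/
theorem exists_prune756 {α : Type*} (r : α → α → Prop) (hs : ∀ a b, r a b → r b a)
    (ht : ∀ a b c, r a b → r b c → r a c) (hr : ∀ a, r a a) (R : Finset α) :
    ∃ R' : Finset α, R' ⊆ R ∧ (∀ a ∈ R', ∀ b ∈ R', a ≠ b → ¬ r a b) ∧
      ∀ a ∈ R, ∃ b ∈ R', r b a := by
  classical
  induction R using Finset.induction_on with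
  | empty => exact ⟨∅, Finset.Subset.refl _, by simp, by simp⟩
  | insert a R _ ih =>
    obtain ⟨R', hsub, hne, hcov⟩ := ih
    by_cases h : ∃ b ∈ R', r b a
    · refine ⟨R', hsub.trans (Finset.subset_insert _ _), hne, fun x hx => ?_⟩
      rcases Finset.mem_insert.1 hx with rfl | hx
      · exact h
      · exact hcov x hx
    · refine ⟨insert a R', Finset.insert_subset_insert _ hsub, ?_, ?_⟩
      · intro x hx y hy hxy hxy'
        rcases Finset.mem_insert.1 hx with hxa | hx' <;>
          rcases Finset.mem_insert.1 hy with hya | hy'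
        · exact hxy (hxa.trans hya.symm)
        · exact h ⟨y, hy', hxa ▸ hs _ _ hxy'⟩
        · exact h ⟨x, hx', hya ▸ hxy'⟩
        · exact hne x hx' y hy' hxy hxy'
      · intro x hx
        rcases Finset.mem_insert.1 hx with rfl | hx
        · exact ⟨x, Finset.mem_insert_self _ _, hr x⟩
        · obtain ⟨b, hb, hbx⟩ := hcov x hx
          exact ⟨b, Finset.mem_insert_of_mem hb, hbx⟩

/-- **Finite systems of representatives of `U g U / U`, abstract form.** -/
theorem exists_system_abs756 {Γ : Type*} [Group Γ] (U : Γ → Prop) (hU1 : U 1)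
    (hUm : ∀ a b, U a → U b → U (a * b)) (hUi : ∀ a, U a → U a⁻¹) (g : Γ)
    {F : Type*} [Finite F] (π : Γ → F)
    (hπ : ∀ u u', U u → U u' → π u = π u' → U (g⁻¹ * (u⁻¹ * u') * g)) :
    ∃ H : Finset Γ, (∀ h ∈ H, ∃ u₁ u₂ : Γ, U u₁ ∧ U u₂ ∧ h = u₁ * g * u₂) ∧
      (∀ h ∈ H, ∀ h' ∈ H, h ≠ h' → ¬ U (h⁻¹ * h')) ∧
      ∀ u : Γ, U u → ∃ h ∈ H, U (h⁻¹ * (u * g)) := by
  classical
  have : Fintype F := Fintype.ofFinite F
  have hex : ∀ c : F, ∃ u : Γ, U u ∧ ((∃ u', U u' ∧ π u' = c) → π u = c) := by
    intro c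
    by_cases h : ∃ u', U u' ∧ π u' = c
    · obtain ⟨u', hu', hc⟩ := h
      exact ⟨u', hu', fun _ => hc⟩
    · exact ⟨1, hU1, fun h' => absurd h' h⟩
  choose rep hrepU hrep using hex
  obtain ⟨R', hsub, hne, hcov⟩ := exists_prune756 (fun a b : Γ => U (a⁻¹ * b))
    (fun a b hab => by
      have := hUi _ hab
      rwa [mul_inv_rev, inv_inv] at this)
    (fun a b c hab hbc => by
      have := hUm _ _ hab hbc
      rwa [mul_assoc, ← mul_assoc b, mul_inv_cancel, one_mul] at this)
    (fun a => by rw [inv_mul_cancel]; exact hU1)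
    (Finset.univ.image fun c : F => rep c * g)
  refine ⟨R', fun h hh => ?_, hne, fun u hu => ?_⟩
  · obtain ⟨c, -, rfl⟩ := Finset.mem_image.1 (hsub hh)
    exact ⟨rep c, 1, hrepU c, hU1, by rw [mul_one]⟩
  · have hc : π (rep (π u)) = π u := hrep (π u) ⟨u, hu, rfl⟩
    obtain ⟨b, hb, hba⟩ := hcov (rep (π u) * g)
      (Finset.mem_image.2 ⟨π u, Finset.mem_univ _, rfl⟩)
    refine ⟨b, hb, ?_⟩
    have h1 : U (g⁻¹ * ((rep (π u))⁻¹ * u) * g) := hπ _ _ (hrepU _) hu hc
    have h2 := hUm _ _ hba h1
    have e : b⁻¹ * (rep (π u) * g) * (g⁻¹ * ((rep (π u))⁻¹ * u) * g) = b⁻¹ * (u * g) := by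
      group
    rwa [e] at h2

end Fermat.Agent.LT.T7.H756
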