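import Mathlib
import Fermat.Agent.LT.T7.Level2
import Fermat.Agent.LT.T7.H83.IwKit
import Fermat.Agent.LT.T2.H655.HeckePres

/-!
# Row LT, tower T7, level 2 (helper756, OFF-MAIN): BASIC KIT for the operator identities
# OP-up / OP-down -- disjoint supports, right invariance, the local part of an element

No holes, nothing assumed.  Vocabulary: A0, `T7/Level2.lean`, helper129's component maps,
helper83's Iwahori kit.

* `comm_of_disjoint756`: two elements of `GL₂(𝔸_K)` commute if at every place one of them is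
  trivial;
* `RInv756 ψ k`: `ψ` is right invariant under `k` (a group condition on `k`);
* `IsIwElt756 l o h`: `h` is an element of Iwahori type along `o 0, …, o (l-1)` (the elements
  of `T7.IsIwInv`);
* `locPart756 w k`: the element supported at `w` with the component of `k` at `w`;
* `inIwahori_of_inLevelGroup756`: `U(𝔫)` lies in the Iwahori subgroup at every `w ∣ 𝔫`;
* `conj_inLevelGroup756`: `U(𝔫)` is normalised by the integral elements with integral inverse
  which are trivial at infinity.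
-/

set_option autoImplicit false
set_option linter.unusedSectionVars false
set_option linter.unusedVariables false

open AutomorphicForm IsDedekindDomain NumberField MeasureTheory
open scoped ComplexConjugate

noncomputable section

namespace Fermat.Agent.LT.T7.H756

open Fermat.Agent.LT.H556 Fermat.Agent.LT.H556.A0 Fermat.Agent.LT.T7 Fermat.Agent.LT.H129
open Fermat.Agent.LT.T7.H83

variable {K : Type} [Field K] [NumberField K]

/-! ## 1. Disjoint supports -/

/-- Two elements commute if at every place one of them is trivial. -/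
theorem comm_of_disjoint756 {a h : G K}
    (hI : ∀ w : InfinitePlace K, TrivAtInf w a ∨ TrivAtInf w h)
    (hF : ∀ v : HeightOneSpectrum (𝓞 K), TrivAtFin v a ∨ TrivAtFin v h) : a * h = h * a := by
  apply G_ext129
  · intro w
    rw [map_mul, map_mul]
    rcases hI w with h1 | h1
    · rw [(trivAtInf_iff129 w a).1 h1, one_mul, mul_one]
    · rw [(trivAtInf_iff129 w h).1 h1, one_mul, mul_one]
  · intro v
    rw [map_mul, map_mul]
    rcases hF v with h1 | h1
    · rw [(trivAtFin_iff129 v a).1 h1, one_mul, mul_one]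
    · rw [(trivAtFin_iff129 v h).1 h1, one_mul, mul_one]

/-- An element which is trivial at the finite places commutes with an element which is trivial
at the infinite places. -/
theorem comm_inf_fin756 {a h : G K} (ha : ∀ v : HeightOneSpectrum (𝓞 K), TrivAtFin v a)
    (hh : ∀ w : InfinitePlace K, TrivAtInf w h) : a * h = h * a :=
  comm_of_disjoint756 (fun w => Or.inr (hh w)) (fun v => Or.inl (ha v))

theorem trivAtInf_one756 (w : InfinitePlace K) : TrivAtInf w (1 : G K) :=
  (trivAtInf_iff129 w 1).2 (map_one _)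

theorem trivAtInf_mul756 {w : InfinitePlace K} {a b : G K} (ha : TrivAtInf w a)
    (hb : TrivAtInf w b) : TrivAtInf w (a * b) := by
  rw [trivAtInf_iff129] at *
  rw [map_mul, ha, hb, mul_one]

theorem trivAtInf_inv756 {w : InfinitePlace K} {a : G K} (ha : TrivAtInf w a) :
    TrivAtInf w a⁻¹ := by
  rw [trivAtInf_iff129] at *
  rw [map_inv, ha, inv_one]

theorem trivAtInf_zpow756 {w : InfinitePlace K} {a : G K} (ha : TrivAtInf w a) (k : ℤ) :
    TrivAtInf w (a ^ k) := by
  rw [trivAtInf_iff129] at *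
  rw [map_zpow, ha, one_zpow]

theorem trivAtFin_one756 (v : HeightOneSpectrum (𝓞 K)) : TrivAtFin v (1 : G K) :=
  (trivAtFin_iff129 v 1).2 (map_one _)

theorem trivAtFin_mul756 {v : HeightOneSpectrum (𝓞 K)} {a b : G K} (ha : TrivAtFin v a)
    (hb : TrivAtFin v b) : TrivAtFin v (a * b) := by
  rw [trivAtFin_iff129] at *
  rw [map_mul, ha, hb, mul_one]

theorem trivAtFin_inv756 {v : HeightOneSpectrum (𝓞 K)} {a : G K} (ha : TrivAtFin v a) :
    TrivAtFin v a⁻¹ := by
  rw [trivAtFin_iff129] at *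
  rw [map_inv, ha, inv_one]

theorem trivAtFin_zpow756 {v : HeightOneSpectrum (𝓞 K)} {a : G K} (ha : TrivAtFin v a)
    (k : ℤ) : TrivAtFin v (a ^ k) := by
  rw [trivAtFin_iff129] at *
  rw [map_zpow, ha, one_zpow]

/-! ## 2. Right invariance -/

/-- `ψ` is right invariant under `k`. -/
def RInv756 (ψ : G K → ℂ) (k : G K) : Prop := ∀ x : G K, ψ (x * k) = ψ x

theorem rinv_one756 (ψ : G K → ℂ) : RInv756 ψ 1 := fun x => by rw [mul_one]

theorem rinv_mul756 {ψ : G K → ℂ} {a b : G K} (ha : RInv756 ψ a) (hb : RInv756 ψ b) :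
    RInv756 ψ (a * b) := fun x => by rw [← mul_assoc, hb, ha]

theorem rinv_inv756 {ψ : G K → ℂ} {a : G K} (ha : RInv756 ψ a) : RInv756 ψ a⁻¹ := fun x => by
  have := ha (x * a⁻¹)
  rw [inv_mul_cancel_right] at this
  exact this.symm

/-- The elements of Iwahori type along `o 0, …, o (l-1)`. -/
def IsIwElt756 (l : ℕ) (o : ℕ → HeightOneSpectrum (𝓞 K)) (h : G K) : Prop :=
  (∀ w : InfinitePlace K, TrivAtInf w h) ∧
    (∀ v : HeightOneSpectrum (𝓞 K), (∀ j < l, v ≠ o j) → TrivAtFin v h) ∧
    ∀ j < l, T5.InIwahori (o j) h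

/-- `ψ` is right invariant under `U(𝔫)` and under the elements of Iwahori type. -/
def IsKInv756 (𝔫 : Ideal (𝓞 K)) (l : ℕ) (o : ℕ → HeightOneSpectrum (𝓞 K)) (ψ : G K → ℂ) :
    Prop :=
  (∀ u : G K, InLevelGroup 𝔫 u → RInv756 ψ u) ∧ ∀ h : G K, IsIwElt756 l o h → RInv756 ψ h

theorem isKInv_of_isWFn756 {𝔫 : Ideal (𝓞 K)} {r : G K} {l : ℕ}
    {o : ℕ → HeightOneSpectrum (𝓞 K)} {ψ : G K → ℂ} (h : IsWFn 𝔫 r l o ψ) :
    IsKInv756 𝔫 l o ψ :=
  ⟨fun u hu x => h.cusp.aut.level_inv u hu x, fun k hk x => h.iw k hk.1 hk.2.1 hk.2.2 x⟩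

theorem isIwInv_of_isKInv756 {𝔫 : Ideal (𝓞 K)} {l : ℕ}
    {o : ℕ → HeightOneSpectrum (𝓞 K)} {ψ : G K → ℂ} (h : IsKInv756 𝔫 l o ψ) :
    IsIwInv l o ψ :=
  fun k h1 h2 h3 x => h.2 k ⟨h1, h2, h3⟩ x

/-! ## 3. The local part -/

/-- The element supported at `w` with the component of `k` at `w`. -/
def locPart756 (w : HeightOneSpectrum (𝓞 K)) (k : G K) : G K :=
  locFin129 w (finCompHom129 w k)

theorem isLocalAtFin_locPart756 (w : HeightOneSpectrum (𝓞 K)) (k : G K) :
    IsLocalAtFin w (locPart756 w k) :=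
  isLocalAtFin_locFin129 w _

theorem finCompHom_locPart756 (w : HeightOneSpectrum (𝓞 K)) (k : G K) :
    finCompHom129 w (locPart756 w k) = finCompHom129 w k :=
  finCompHom129_locFin129 w _

theorem finComp_locPart756 (w : HeightOneSpectrum (𝓞 K)) (k : G K) :
    finComp w (locPart756 w k) = finComp w k := by
  rw [← coe_finCompHom129, finCompHom_locPart756, coe_finCompHom129]

/-- The rest `(locPart w k)⁻¹ * k` is trivial at `w`. -/
theorem trivAtFin_rest756 (w : HeightOneSpectrum (𝓞 K)) (k : G K) :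
    TrivAtFin w ((locPart756 w k)⁻¹ * k) := by
  rw [trivAtFin_iff129, map_mul, map_inv, finCompHom_locPart756, inv_mul_cancel]

/-- The rest has the components of `k` at the other finite places. -/
theorem finCompHom_rest756 (w : HeightOneSpectrum (𝓞 K)) (k : G K)
    {v : HeightOneSpectrum (𝓞 K)} (hv : v ≠ w) :
    finCompHom129 v ((locPart756 w k)⁻¹ * k) = finCompHom129 v k := by
  have h := ((isLocalAtFin_iff129 w _).1 (isLocalAtFin_locPart756 w k)).2 v hv
  rw [map_mul, map_inv, h, inv_one, one_mul]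

theorem infCompHom_rest756 (w : HeightOneSpectrum (𝓞 K)) (k : G K) (w' : InfinitePlace K) :
    infCompHom129 w' ((locPart756 w k)⁻¹ * k) = infCompHom129 w' k := by
  have h := ((isLocalAtFin_iff129 w _).1 (isLocalAtFin_locPart756 w k)).1 w'
  rw [map_mul, map_inv, h, inv_one, one_mul]

/-- The local part commutes with the rest. -/
theorem locPart_comm756 (w : HeightOneSpectrum (𝓞 K)) (k : G K) :
    locPart756 w k * ((locPart756 w k)⁻¹ * k) = (locPart756 w k)⁻¹ * k * locPart756 w k :=
  mul_comm_of_local83 w (isLocalAtFin_locPart756 w k) (trivAtFin_rest756 w k)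

/-- `k = rest * local part`. -/
theorem eq_rest_mul_locPart756 (w : HeightOneSpectrum (𝓞 K)) (k : G K) :
    k = (locPart756 w k)⁻¹ * k * locPart756 w k := by
  rw [← locPart_comm756, mul_inv_cancel_left]

/-! ## 4. Integrality, the Iwahori condition, the level group -/

theorem isIntegralAt_congr756 {v : HeightOneSpectrum (𝓞 K)} {g h : G K}
    (e : finCompHom129 v g = finCompHom129 v h) (hg : IsIntegralAt v g) : IsIntegralAt v h := by
  intro i j
  have := hg i j
  rw [← coe_finCompHom129, e, coe_finCompHom129] at this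
  exact this

theorem isIntegralAt_of_trivAtFin756 {v : HeightOneSpectrum (𝓞 K)} {g : G K}
    (hg : TrivAtFin v g) : IsIntegralAt v g := by
  intro i j
  have e : finComp v g = 1 := hg
  rw [e]
  by_cases hij : i = j
  · subst hij
    rw [Matrix.one_apply_eq]
    exact one_mem _
  · rw [Matrix.one_apply_ne hij]
    exact zero_mem _

/-- The closure of an ideal contained in `w` lies in the maximal ideal at `w`. -/
theorem valued_lt_one_of_mem_idealClosure756 {𝔫 : Ideal (𝓞 K)} {w : HeightOneSpectrum (𝓞 K)}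
    (hw : w.asIdeal ∣ 𝔫) {x : w.adicCompletion K} (hx : x ∈ idealClosure 𝔫 w) :
    Valued.v x < 1 := by
  have hcl : IsClosed {y : w.adicCompletion K | Valued.v y < 1} := by
    have h := Valued.isClosed_ball (w.adicCompletion K) 1
    have e : {y : w.adicCompletion K | (Valued.v : Valuation (w.adicCompletion K) _).restrict y < 1}
        = {y : w.adicCompletion K | Valued.v y < 1} := by
      ext y
      simp only [Set.mem_ofPred_eq]
      exact Valuation.restrict_lt_one_iff _
    rw [← e]
    exact h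
  have hsub : ((fun x : 𝓞 K => algebraMap K (w.adicCompletion K) (algebraMap (𝓞 K) K x)) ''
      (𝔫 : Set (𝓞 K))) ⊆ {y : w.adicCompletion K | Valued.v y < 1} := by
    rintro _ ⟨a, ha, rfl⟩
    show Valued.v (algebraMap K (w.adicCompletion K) (algebraMap (𝓞 K) K a)) < 1
    have h1 : Valued.v (algebraMap K (w.adicCompletion K) (algebraMap (𝓞 K) K a))
        = w.valuation K (algebraMap (𝓞 K) K a) :=
      HeightOneSpectrum.valuedAdicCompletion_eq_valuation' w _
    rw [h1, HeightOneSpectrum.valuation_lt_one_iff_mem]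
    exact (Ideal.dvd_iff_le.1 hw) ha
  exact closure_minimal hsub hcl hx

/-- `U(𝔫)` lies in the Iwahori subgroup at every place dividing `𝔫`. -/
theorem inIwahori_of_inLevelGroup756 {𝔫 : Ideal (𝓞 K)} {w : HeightOneSpectrum (𝓞 K)}
    (hw : w.asIdeal ∣ 𝔫) {u : G K} (hu : InLevelGroup 𝔫 u) : T5.InIwahori w u := by
  obtain ⟨h1, h2⟩ := T2.H655.isIntegralAt_of_inLevelGroup655 hu w
  refine ⟨h1, h2, ?_⟩
  have h3 := (hu.2 w 1 0).1
  rw [Matrix.sub_apply, Matrix.one_apply_ne (by decide : (1 : Fin 2) ≠ 0), sub_zero] at h3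
  exact valued_lt_one_of_mem_idealClosure756 hw h3

/-- The closure of an ideal is stable under multiplication by integers of the completion. -/
theorem idealClosure_int_mul756 (𝔫 : Ideal (𝓞 K)) (v : HeightOneSpectrum (𝓞 K))
    {a x : v.adicCompletion K} (ha : Valued.v a ≤ 1) (hx : x ∈ idealClosure 𝔫 v) :
    a * x ∈ idealClosure 𝔫 v := by
  have ha' : a ∈ closure ((fun y : 𝓞 K =>
      algebraMap K (v.adicCompletion K) (algebraMap (𝓞 K) K y)) '' (Set.univ : Set (𝓞 K))) := by
    rw [mem_closure_iff_nhds]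
    intro t ht
    obtain ⟨b, hb⟩ := exists_int_mem_nhds129 v ha ht
    exact ⟨_, hb, b, Set.mem_univ b, rfl⟩
  unfold idealClosure at hx ⊢
  refine map_mem_closure₂ continuous_mul ha' hx ?_
  rintro _ ⟨b, -, rfl⟩ _ ⟨c, hc, rfl⟩
  exact ⟨b * c, 𝔫.mul_mem_left b hc, by simp⟩

theorem idealClosure_mul_int756 (𝔫 : Ideal (𝓞 K)) (v : HeightOneSpectrum (𝓞 K))
    {a x : v.adicCompletion K} (ha : Valued.v a ≤ 1) (hx : x ∈ idealClosure 𝔫 v) :
    x * a ∈ idealClosure 𝔫 v := by
  rw [mul_comm]
  exact idealClosure_int_mul756 𝔫 v ha hx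

theorem idealClosure_add756 (𝔫 : Ideal (𝓞 K)) (v : HeightOneSpectrum (𝓞 K))
    {x y : v.adicCompletion K} (hx : x ∈ idealClosure 𝔫 v) (hy : y ∈ idealClosure 𝔫 v) :
    x + y ∈ idealClosure 𝔫 v := by
  unfold idealClosure at hx hy ⊢
  refine map_mem_closure₂ continuous_add hx hy ?_
  rintro _ ⟨a, ha, rfl⟩ _ ⟨b, hb, rfl⟩
  exact ⟨a + b, 𝔫.add_mem ha hb, by simp⟩

end Fermat.Agent.LT.T7.H756

end
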