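import Mathlib
import Fermat.Agent.LT.T7.H756.EigBasic
import Fermat.Agent.LT.T2.H907.Level

/-!
# Row LT, tower T7, level 2 (helper756, OFF-MAIN): the operators `[U g U]`, `𝒰`, `Z` preserve
# the invariance, and do not depend on the coset systems

No holes, nothing assumed.

* `inLevelGroup_one756 / mul756 / inv756`, `conj_inLevelGroup756` (normality of `U(𝔫)` under the
  integral elements);
* `rinv_cosetOp_iw756`, `isKInv_cosetOp_iw756`, `isKInv_iwOp_iterate756`: the Iwahori operator at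
  `o 0 ∣ 𝔫` preserves the invariance under `U(𝔫)` and the elements of Iwahori type;
* `central_of_scalarUnif756`, `isKInv_shiftOp756`, `shiftOp_indep756`;
* `cosetOp_perm756`, `isKInv_cosetOp_dbl756`, `cosetOp_dbl_indep756`: the same for the double
  coset operator of an element which is trivial at infinity and along the orbit.
-/

set_option autoImplicit false
set_option linter.unusedSectionVars false
set_option linter.unusedVariables false

open AutomorphicForm IsDedekindDomain NumberField MeasureTheory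
open scoped ComplexConjugate

noncomputable section

namespace Fermat.Agent.LT.T7.H756

open Fermat.Agent.LT.H556 Fermat.Agent.LT.H556.A0 Fermat.Agent.LT.T7 Fermat.Agent.LT.H129
open Fermat.Agent.LT.T7.H83

variable {K : Type} [Field K] [NumberField K]

/-! ## 1. The level group -/

theorem inLevelGroup_one756 (𝔫 : Ideal (𝓞 K)) : InLevelGroup 𝔫 (1 : G K) :=
  (H51.MS4.inLevelGroup_iff 𝔫 1).2
    ⟨fun w => map_one _, fun v => by rw [map_one]; exact H51.MS4.locLevel_one 𝔫 v⟩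

theorem inLevelGroup_mul756 {𝔫 : Ideal (𝓞 K)} {a b : G K} (ha : InLevelGroup 𝔫 a)
    (hb : InLevelGroup 𝔫 b) : InLevelGroup 𝔫 (a * b) := by
  rw [H51.MS4.inLevelGroup_iff] at *
  refine ⟨fun w => by rw [map_mul, ha.1 w, hb.1 w, mul_one], fun v => ?_⟩
  rw [map_mul]
  exact T2.H907.locLevel_mul907 (ha.2 v) (hb.2 v)

theorem inLevelGroup_inv756 {𝔫 : Ideal (𝓞 K)} {a : G K} (ha : InLevelGroup 𝔫 a) :
    InLevelGroup 𝔫 a⁻¹ := by
  rw [H51.MS4.inLevelGroup_iff] at *
  refine ⟨fun w => by rw [map_inv, ha.1 w, inv_one], fun v => ?_⟩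
  rw [map_inv]
  exact T2.H907.locLevel_inv907 (ha.2 v)

theorem finComp_mul756 (v : HeightOneSpectrum (𝓞 K)) (g g' : G K) :
    finComp v (g * g') = finComp v g * finComp v g' := by
  rw [← coe_finCompHom129, map_mul]
  rfl

theorem finComp_one756 (v : HeightOneSpectrum (𝓞 K)) : finComp v (1 : G K) = 1 := by
  rw [← coe_finCompHom129, map_one]
  rfl

/-- The key computation: conjugation by integral matrices preserves the congruence. -/
theorem conj_sub_one_mem756 (𝔫 : Ideal (𝓞 K)) (v : HeightOneSpectrum (𝓞 K))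
    (A U A' : Matrix (Fin 2) (Fin 2) (v.adicCompletion K)) (hAA : A * A' = 1)
    (hA : ∀ i j, Valued.v (A i j) ≤ 1) (hA' : ∀ i j, Valued.v (A' i j) ≤ 1)
    (hU : ∀ i j, (U - 1) i j ∈ idealClosure 𝔫 v) (i j : Fin 2) :
    (A * U * A' - 1) i j ∈ idealClosure 𝔫 v := by
  have e : A * U * A' - 1 = A * (U - 1) * A' := by
    rw [Matrix.mul_sub, Matrix.sub_mul, Matrix.mul_one, hAA]
  rw [e, Matrix.mul_apply, Fin.sum_univ_two]
  have h1 : ∀ a b : Fin 2, (A * (U - 1)) a b ∈ idealClosure 𝔫 v := by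
    intro a b
    rw [Matrix.mul_apply, Fin.sum_univ_two]
    exact idealClosure_add756 𝔫 v (idealClosure_int_mul756 𝔫 v (hA a 0) (hU 0 b))
      (idealClosure_int_mul756 𝔫 v (hA a 1) (hU 1 b))
  exact idealClosure_add756 𝔫 v (idealClosure_mul_int756 𝔫 v (hA' 0 j) (h1 i 0))
    (idealClosure_mul_int756 𝔫 v (hA' 1 j) (h1 i 1))

/-- **Normality**: `U(𝔫)` is normalised by the elements which are trivial at infinity, integral
with integral inverse at every finite place. -/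
theorem conj_inLevelGroup756 {𝔫 : Ideal (𝓞 K)} {k u : G K}
    (hk1 : ∀ w : InfinitePlace K, TrivAtInf w k)
    (hk2 : ∀ v : HeightOneSpectrum (𝓞 K), IsIntegralAt v k ∧ IsIntegralAt v k⁻¹)
    (hu : InLevelGroup 𝔫 u) : InLevelGroup 𝔫 (k * u * k⁻¹) := by
  have hu' := inLevelGroup_inv756 hu
  refine ⟨fun w => trivAtInf_mul756 (trivAtInf_mul756 (hk1 w) (hu.1 w))
    (trivAtInf_inv756 (hk1 w)), fun v i j => ⟨?_, ?_⟩⟩
  · rw [finComp_mul756, finComp_mul756]
    refine conj_sub_one_mem756 𝔫 v _ _ _ ?_ (fun a b => (hk2 v).1 a b) (fun a b => (hk2 v).2 a b)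
      (fun a b => (hu.2 v a b).1) i j
    rw [← finComp_mul756, mul_inv_cancel, finComp_one756]
  · have e : (k * u * k⁻¹)⁻¹ = k * u⁻¹ * k⁻¹ := by group
    rw [e, finComp_mul756, finComp_mul756]
    refine conj_sub_one_mem756 𝔫 v _ _ _ ?_ (fun a b => (hk2 v).1 a b) (fun a b => (hk2 v).2 a b)
      (fun a b => (hu'.2 v a b).1) i j
    rw [← finComp_mul756, mul_inv_cancel, finComp_one756]

/-- The elements of Iwahori type are integral with integral inverse. -/
theorem isIntegralAt_of_isIwElt756 {l : ℕ} {o : ℕ → HeightOneSpectrum (𝓞 K)} {k : G K}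
    (hk : IsIwElt756 l o k) (v : HeightOneSpectrum (𝓞 K)) :
    IsIntegralAt v k ∧ IsIntegralAt v k⁻¹ := by
  by_cases hv : ∃ j < l, v = o j
  · obtain ⟨j, hj, rfl⟩ := hv
    exact ⟨(hk.2.2 j hj).1, (hk.2.2 j hj).2.1⟩
  · have hv' : ∀ j < l, v ≠ o j := fun j hj e => hv ⟨j, hj, e⟩
    have ht := hk.2.1 v hv'
    exact ⟨isIntegralAt_of_trivAtFin756 ht, isIntegralAt_of_trivAtFin756 (trivAtFin_inv756 ht)⟩

theorem isIwElt_inv756 {l : ℕ} {o : ℕ → HeightOneSpectrum (𝓞 K)} {k : G K}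
    (hk : IsIwElt756 l o k) : IsIwElt756 l o k⁻¹ :=
  ⟨fun w => trivAtInf_inv756 (hk.1 w), fun v hv => trivAtFin_inv756 (hk.2.1 v hv),
    fun j hj => inIwahori_inv83 (o j) (hk.2.2 j hj)⟩

/-- The local part at `o 0` of an element which is Iwahori at `o 0` is of Iwahori type. -/
theorem isIwElt_locPart756 {l : ℕ} {o : ℕ → HeightOneSpectrum (𝓞 K)} (hl : 0 < l) {k : G K}
    (hk : T5.InIwahori (o 0) k) : IsIwElt756 l o (locPart756 (o 0) k) := by
  have hloc := isLocalAtFin_locPart756 (o 0) k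
  refine ⟨hloc.1, fun v hv => hloc.2 v (hv 0 hl), fun j hj => ?_⟩
  by_cases e : o j = o 0
  · rw [e]
    exact inIwahori_congr83 (o 0) (finComp_locPart756 (o 0) k).symm hk
  · exact inIwahori_of_trivAtFin83 (o j) (hloc.2 (o j) e)

/-! ## 2. The Iwahori operator -/

/-- The Iwahori coset operator at `o 0` preserves the right invariance under an element `k`
which is Iwahori at `o 0`. -/
theorem rinv_cosetOp_iw756 {𝔫 : Ideal (𝓞 K)} {l : ℕ} {o : ℕ → HeightOneSpectrum (𝓞 K)}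
    (hl : 0 < l) {H : Finset (G K)} (hH : IsIwCosetSystem (o 0) H) {ψ : G K → ℂ}
    (hψ : IsKInv756 𝔫 l o ψ) {k : G K} (hk : RInv756 ψ k) (hkI : T5.InIwahori (o 0) k) :
    RInv756 (cosetOp H ψ) k := by
  intro x
  have hat : IsIwInvAt (o 0) ψ := isIwInvAt_of_isIwInv83 (isIwInv_of_isKInv756 hψ) hl
  have hloc : RInv756 ψ (locPart756 (o 0) k) := hψ.2 _ (isIwElt_locPart756 hl hkI)
  have hrest : RInv756 ψ ((locPart756 (o 0) k)⁻¹ * k) := rinv_mul756 (rinv_inv756 hloc) hk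
  have e1 : x * k = x * ((locPart756 (o 0) k)⁻¹ * k) * locPart756 (o 0) k := by
    rw [mul_assoc, ← eq_rest_mul_locPart756]
  rw [e1, cosetOp_isIwInvAt83 (o 0) hH hat _ (isLocalAtFin_locPart756 (o 0) k)
    (inIwahori_congr83 (o 0) (finComp_locPart756 (o 0) k).symm hkI),
    cosetOp_mul_right83 (o 0) (fun h hh => (hH.2.1 h hh).1) (trivAtFin_rest756 (o 0) k)]
  unfold cosetOp
  refine Finset.sum_congr rfl fun h _ => ?_
  exact hrest _

theorem isKInv_cosetOp_iw756 {𝔫 : Ideal (𝓞 K)} {l : ℕ} {o : ℕ → HeightOneSpectrum (𝓞 K)}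
    (hl : 0 < l) (hw : (o 0).asIdeal ∣ 𝔫) {H : Finset (G K)} (hH : IsIwCosetSystem (o 0) H)
    {ψ : G K → ℂ} (hψ : IsKInv756 𝔫 l o ψ) : IsKInv756 𝔫 l o (cosetOp H ψ) :=
  ⟨fun u hu => rinv_cosetOp_iw756 hl hH hψ (hψ.1 u hu) (inIwahori_of_inLevelGroup756 hw hu),
    fun k hk => rinv_cosetOp_iw756 hl hH hψ (hψ.2 k hk) (hk.2.2 0 hl)⟩

theorem isKInv_const_mul756 {𝔫 : Ideal (𝓞 K)} {l : ℕ} {o : ℕ → HeightOneSpectrum (𝓞 K)}
    {ψ : G K → ℂ} (hψ : IsKInv756 𝔫 l o ψ) (c : ℂ) : IsKInv756 𝔫 l o (fun x => c * ψ x) :=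
  ⟨fun u hu x => by show c * ψ (x * u) = c * ψ x; rw [hψ.1 u hu x],
    fun k hk x => by show c * ψ (x * k) = c * ψ x; rw [hψ.2 k hk x]⟩

theorem iwOp_eq756 (w : HeightOneSpectrum (𝓞 K)) (H : Finset (G K)) (ψ : G K → ℂ) :
    iwOp w H ψ = fun x => ((Real.sqrt (Ideal.absNorm w.asIdeal : ℝ) : ℝ) : ℂ)⁻¹
      * cosetOp H ψ x := rfl

theorem isKInv_iwOp756 {𝔫 : Ideal (𝓞 K)} {l : ℕ} {o : ℕ → HeightOneSpectrum (𝓞 K)}
    (hl : 0 < l) (hw : (o 0).asIdeal ∣ 𝔫) {H : Finset (G K)} (hH : IsIwCosetSystem (o 0) H)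
    {ψ : G K → ℂ} (hψ : IsKInv756 𝔫 l o ψ) : IsKInv756 𝔫 l o (iwOp (o 0) H ψ) := by
  rw [iwOp_eq756]
  exact isKInv_const_mul756 (isKInv_cosetOp_iw756 hl hw hH hψ) _

/-! ## 3. The central shift -/

/-- A scalar uniformiser is central. -/
theorem central_of_scalarUnif756 {w : HeightOneSpectrum (𝓞 K)} {z : G K}
    (hz : IsScalarUniformizerAt w z) (y : G K) : z * y = y * z := by
  obtain ⟨hloc, c, -, hc⟩ := hz
  have hloc' := (isLocalAtFin_iff129 w z).1 hloc
  apply G_ext129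
  · intro w'
    rw [map_mul, map_mul, hloc'.1 w', one_mul, mul_one]
  · intro v
    by_cases e : v = w
    · subst e
      rw [map_mul, map_mul]
      apply Units.ext
      rw [Units.val_mul, Units.val_mul, coe_finCompHom129, coe_finCompHom129, hc]
      have e1 : Matrix.diagonal (fun _ : Fin 2 => c)
          = c • (1 : Matrix (Fin 2) (Fin 2) (v.adicCompletion K)) := by
        rw [Matrix.smul_one_eq_diagonal]
      rw [e1, Matrix.smul_mul, Matrix.mul_smul, Matrix.one_mul, Matrix.mul_one]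
    · rw [map_mul, map_mul, hloc'.2 v e, one_mul, mul_one]

theorem central_zpow756 {z : G K} (hz : ∀ y : G K, z * y = y * z) (k : ℤ) (y : G K) :
    z ^ k * y = y * z ^ k :=
  ((Commute.zpow_left (show Commute z y from hz y) k)).eq

theorem isKInv_shiftOp756 {𝔫 : Ideal (𝓞 K)} {l : ℕ} {o : ℕ → HeightOneSpectrum (𝓞 K)}
    {z : G K} (hz : ∀ y : G K, z * y = y * z) (k : ℤ) {ψ : G K → ℂ}
    (hψ : IsKInv756 𝔫 l o ψ) : IsKInv756 𝔫 l o (shiftOp z k ψ) := by
  have key : ∀ n : G K, RInv756 ψ n → RInv756 (shiftOp z k ψ) n := by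
    intro n hn x
    show ψ (x * n * z ^ k) = ψ (x * z ^ k)
    rw [mul_assoc, ← central_zpow756 hz k n, ← mul_assoc, hn]
  exact ⟨fun u hu => key u (hψ.1 u hu), fun h hh => key h (hψ.2 h hh)⟩

end Fermat.Agent.LT.T7.H756

end
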