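import Mathlib
import Fermat.Agent.LT.T7.H756.DblAbs
import Fermat.Agent.LT.T7.H756.EigInv
import Fermat.Agent.LT.H767.StrongApprox
import Fermat.Agent.LT.H51.MS4B

/-!
# Row LT, tower T7 (helper756, OFF-MAIN): the double cosets `U(𝔫) g U(𝔫)` are finite

No holes, nothing assumed.  For EVERY number field `K`, EVERY ideal `𝔫` and EVERY element `g` of
`GL₂(𝔸_K)` which is trivial at the infinite places:

* `exists_dblCosetSystem756 : ∃ H : Finset (G K), IsDblCosetSystem 𝔫 g H`.

Route (no topology): `e = d' d n₀` with `n₀ ∈ 𝔫`, `d g` and `d' g⁻¹` integral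
(`H767.exists_denominator`); for `w` trivial at infinity with `w ≡ 1`, `w⁻¹ ≡ 1` modulo `e` the
conjugate `g⁻¹ w g` is in `U(𝔫)` (`conj_level756`); the entries of the elements of `U(𝔫)` are
integral adeles and an integral adele is congruent modulo `e` to an element of `𝓞 K`
(`H767.exists_sub_mem_integers`), which gives an invariant with values in the finite set
`Fin 2 → Fin 2 → 𝓞 K ⧸ (e)` (`exists_finite_inv756`); `exists_system_abs756` concludes.
-/

set_option autoImplicit false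
set_option linter.unusedSectionVars false
set_option linter.unusedVariables false

open AutomorphicForm IsDedekindDomain NumberField
open scoped WithZero

noncomputable section

namespace Fermat.Agent.LT.T7.H756

open Fermat.Agent.LT.H556 Fermat.Agent.LT.H556.A0 Fermat.Agent.LT.T7 Fermat.Agent.LT.H129

variable {K : Type} [Field K] [NumberField K]

/-- The valuation at `v` of the image of `e : 𝓞 K`. -/
def vInt756 (v : HeightOneSpectrum (𝓞 K)) (e : 𝓞 K) : ℤᵐ⁰ :=
  Valued.v (algebraMap K (v.adicCompletion K) (algebraMap (𝓞 K) K e))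

theorem vInt_le_one756 (v : HeightOneSpectrum (𝓞 K)) (e : 𝓞 K) : vInt756 v e ≤ 1 :=
  H767.valued_algebraMap_int_le_one K v e

theorem vInt_mul756 (v : HeightOneSpectrum (𝓞 K)) (e e' : 𝓞 K) :
    vInt756 v (e * e') = vInt756 v e * vInt756 v e' := by
  unfold vInt756
  rw [map_mul, map_mul, map_mul]

theorem vInt_eq756 (v : HeightOneSpectrum (𝓞 K)) (e : 𝓞 K) :
    vInt756 v e = v.valuation K (algebraMap (𝓞 K) K e) :=
  H767.valued_algebraMap K v _

theorem vInt_ne_zero756 (v : HeightOneSpectrum (𝓞 K)) {e : 𝓞 K} (he : e ≠ 0) :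
    vInt756 v e ≠ 0 := by
  unfold vInt756
  rw [Valuation.ne_zero_iff]
  simpa using he

/-! ## 1. Conjugation into the level group -/

/-- Common denominators of the entries of a matrix of adeles. -/
theorem exists_denominator_mat756 (M : Matrix (Fin 2) (Fin 2) (Adl K)) :
    ∃ d : 𝓞 K, d ≠ 0 ∧ ∀ (v : HeightOneSpectrum (𝓞 K)) (i j : Fin 2),
      vInt756 v d * Valued.v ((M i j).2 v) ≤ 1 := by
  classical
  choose δ hδ0 hδ using fun p : Fin 2 × Fin 2 => H767.exists_denominator K (M p.1 p.2).2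
  refine ⟨∏ p : Fin 2 × Fin 2, δ p, Finset.prod_ne_zero_iff.mpr fun p _ => hδ0 p,
    fun v i j => ?_⟩
  rw [← Finset.mul_prod_erase _ _ (Finset.mem_univ (i, j)), vInt_mul756]
  have h1 : vInt756 v (δ (i, j)) * Valued.v ((M i j).2 v) ≤ 1 := by
    have := hδ (i, j) v
    rwa [map_mul] at this
  calc vInt756 v (δ (i, j)) * vInt756 v (∏ x ∈ Finset.univ.erase (i, j), δ x)
        * Valued.v ((M i j).2 v)
      = vInt756 v (∏ x ∈ Finset.univ.erase (i, j), δ x)
        * (vInt756 v (δ (i, j)) * Valued.v ((M i j).2 v)) := by ac_rfl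
    _ ≤ 1 * 1 := mul_le_mul' (vInt_le_one756 v _) h1
    _ = 1 := one_mul 1

/-- The local computation. -/
theorem conj_val_le756 (v : HeightOneSpectrum (𝓞 K))
    (A W A' : Matrix (Fin 2) (Fin 2) (v.adicCompletion K)) (hAA : A' * A = 1) {α α' ν : ℤᵐ⁰}
    (hA : ∀ i j, α * Valued.v (A i j) ≤ 1) (hA' : ∀ i j, α' * Valued.v (A' i j) ≤ 1)
    (hW : ∀ i j, Valued.v ((W - 1) i j) ≤ α' * α * ν) (i j : Fin 2) :
    Valued.v ((A' * W * A - 1) i j) ≤ ν := by
  have e : A' * W * A - 1 = A' * (W - 1) * A := by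
    rw [Matrix.mul_sub, Matrix.sub_mul, Matrix.mul_one, hAA]
  have key : ∀ a b : Fin 2, Valued.v (A' i a * (W - 1) a b * A b j) ≤ ν := by
    intro a b
    rw [map_mul, map_mul]
    calc Valued.v (A' i a) * Valued.v ((W - 1) a b) * Valued.v (A b j)
        ≤ Valued.v (A' i a) * (α' * α * ν) * Valued.v (A b j) :=
          mul_le_mul' (mul_le_mul' le_rfl (hW a b)) le_rfl
      _ = (α' * Valued.v (A' i a)) * (α * Valued.v (A b j)) * ν := by ac_rfl
      _ ≤ 1 * 1 * ν := mul_le_mul' (mul_le_mul' (hA' i a) (hA b j)) le_rfl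
      _ = ν := by rw [one_mul, one_mul]
  rw [e, Matrix.mul_apply, Fin.sum_univ_two, Matrix.mul_apply, Matrix.mul_apply,
    Fin.sum_univ_two, Fin.sum_univ_two, add_mul, add_mul]
  exact Valuation.map_add_le _
    (Valuation.map_add_le _ (key 0 0) (key 1 0))
    (Valuation.map_add_le _ (key 0 1) (key 1 1))

theorem finComp_inv_mul756 (v : HeightOneSpectrum (𝓞 K)) (g : G K) :
    finComp v g⁻¹ * finComp v g = 1 := by
  rw [← finComp_mul756, inv_mul_cancel, finComp_one756]

/-- **Conjugation into the level group.** -/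
theorem conj_level756 (𝔫 : Ideal (𝓞 K)) (h𝔫 : 𝔫 ≠ ⊥) (g : G K)
    (hg : ∀ w : InfinitePlace K, TrivAtInf w g) :
    ∃ e : 𝓞 K, e ≠ 0 ∧ ∀ w : G K, (∀ w' : InfinitePlace K, TrivAtInf w' w) →
      (∀ (v : HeightOneSpectrum (𝓞 K)) (i j : Fin 2),
        Valued.v ((finComp v w - 1) i j) ≤ vInt756 v e) →
      (∀ (v : HeightOneSpectrum (𝓞 K)) (i j : Fin 2),
        Valued.v ((finComp v w⁻¹ - 1) i j) ≤ vInt756 v e) →
      InLevelGroup 𝔫 (g⁻¹ * w * g) := by
  obtain ⟨n₀, hn₀, hn₀0⟩ := Submodule.exists_mem_ne_zero_of_ne_bot h𝔫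
  obtain ⟨d, hd0, hd⟩ := exists_denominator_mat756 (g : Matrix (Fin 2) (Fin 2) (Adl K))
  obtain ⟨d', hd'0, hd'⟩ :=
    exists_denominator_mat756 ((g⁻¹ : G K) : Matrix (Fin 2) (Fin 2) (Adl K))
  refine ⟨d' * d * n₀, mul_ne_zero (mul_ne_zero hd'0 hd0) hn₀0, fun w hw h1 h2 => ?_⟩
  have hval : ∀ (W : G K), (∀ (v : HeightOneSpectrum (𝓞 K)) (i j : Fin 2),
        Valued.v ((finComp v W - 1) i j) ≤ vInt756 v (d' * d * n₀)) →
      ∀ (v : HeightOneSpectrum (𝓞 K)) (i j : Fin 2),
        (finComp v (g⁻¹ * W * g) - 1) i j ∈ idealClosure 𝔫 v := by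
    intro W hW v i j
    refine H51.MS4.mem_idealClosure_of_le v hn₀ ?_
    rw [← vInt_eq756, finComp_mul756, finComp_mul756]
    refine conj_val_le756 v (finComp v g) (finComp v W) (finComp v g⁻¹)
      (finComp_inv_mul756 v g) (α := vInt756 v d) (α' := vInt756 v d')
      (fun a b => hd v a b) (fun a b => hd' v a b) (fun a b => ?_) i j
    have := hW v a b
    rwa [vInt_mul756, vInt_mul756] at this
  refine ⟨fun w' => trivAtInf_mul756 (trivAtInf_mul756 (trivAtInf_inv756 (hg w')) (hw w'))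
    (hg w'), fun v i j => ⟨hval w h1 v i j, ?_⟩⟩
  have e : (g⁻¹ * w * g)⁻¹ = g⁻¹ * w⁻¹ * g := by group
  rw [e]
  exact hval w⁻¹ h2 v i j

/-! ## 2. The finite invariant -/

/-- An integral finite adele is congruent modulo `e ≠ 0` to an element of `𝓞 K`. -/
theorem exists_int_approx756 (e : 𝓞 K) (he : e ≠ 0) (a : FiniteAdeleRing (𝓞 K) K)
    (ha : ∀ v : HeightOneSpectrum (𝓞 K), Valued.v (a v) ≤ 1) :
    ∃ r : 𝓞 K, ∀ v : HeightOneSpectrum (𝓞 K),
      Valued.v (a v - algebraMap K (v.adicCompletion K) (algebraMap (𝓞 K) K r))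
        ≤ vInt756 v e := by
  have heK : (algebraMap (𝓞 K) K e) ≠ 0 := by simpa using he
  obtain ⟨k, hk⟩ := H767.exists_sub_mem_integers K
    (algebraMap K (FiniteAdeleRing (𝓞 K) K) (algebraMap (𝓞 K) K e)⁻¹ * a)
  have hy : ∀ v : HeightOneSpectrum (𝓞 K),
      Valued.v (a v - algebraMap K (v.adicCompletion K) (algebraMap (𝓞 K) K e * k))
        ≤ vInt756 v e := by
    intro v
    have h1 := hk v
    rw [HeightOneSpectrum.mem_adicCompletionIntegers] at h1
    have e2 : (algebraMap K (FiniteAdeleRing (𝓞 K) K) (algebraMap (𝓞 K) K e)⁻¹ * a) v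
        = algebraMap K (v.adicCompletion K) (algebraMap (𝓞 K) K e)⁻¹ * a v := rfl
    rw [e2] at h1
    have hE : algebraMap K (v.adicCompletion K) (algebraMap (𝓞 K) K e) ≠ 0 := by
      simpa using he
    have e3 : a v - algebraMap K (v.adicCompletion K) (algebraMap (𝓞 K) K e * k)
        = algebraMap K (v.adicCompletion K) (algebraMap (𝓞 K) K e)
          * (algebraMap K (v.adicCompletion K) (algebraMap (𝓞 K) K e)⁻¹ * a v
            - algebraMap K (v.adicCompletion K) k) := by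
      rw [map_mul, map_inv₀]
      field_simp
    rw [e3, map_mul]
    calc Valued.v (algebraMap K (v.adicCompletion K) (algebraMap (𝓞 K) K e)) * _
        ≤ vInt756 v e * 1 := mul_le_mul' le_rfl h1
      _ = vInt756 v e := mul_one _
  have hint : ∀ v : HeightOneSpectrum (𝓞 K),
      v.valuation K (algebraMap (𝓞 K) K e * k) ≤ 1 := by
    intro v
    rw [← H767.valued_algebraMap K v]
    have e4 : algebraMap K (v.adicCompletion K) (algebraMap (𝓞 K) K e * k)
        = a v + -(a v - algebraMap K (v.adicCompletion K) (algebraMap (𝓞 K) K e * k)) := by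
      ring
    rw [e4]
    refine Valuation.map_add_le _ (ha v) ?_
    rw [Valuation.map_neg]
    exact (hy v).trans (vInt_le_one756 v e)
  obtain ⟨r, hr⟩ := HeightOneSpectrum.mem_integers_of_valuation_le_one K _ hint
  refine ⟨r, fun v => ?_⟩
  rw [hr]
  exact hy v

/-- **The finite invariant** on the integral finite adeles. -/
theorem exists_finite_inv756 (e : 𝓞 K) (he : e ≠ 0) :
    ∃ π : FiniteAdeleRing (𝓞 K) K → (𝓞 K ⧸ Ideal.span {e}),
      ∀ a a' : FiniteAdeleRing (𝓞 K) K,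
        (∀ v : HeightOneSpectrum (𝓞 K), Valued.v (a v) ≤ 1) →
        (∀ v : HeightOneSpectrum (𝓞 K), Valued.v (a' v) ≤ 1) → π a = π a' →
        ∀ v : HeightOneSpectrum (𝓞 K), Valued.v (a v - a' v) ≤ vInt756 v e := by
  classical
  have hex : ∀ a : FiniteAdeleRing (𝓞 K) K, ∃ r : 𝓞 K,
      (∀ v : HeightOneSpectrum (𝓞 K), Valued.v (a v) ≤ 1) →
      ∀ v : HeightOneSpectrum (𝓞 K),
        Valued.v (a v - algebraMap K (v.adicCompletion K) (algebraMap (𝓞 K) K r))
          ≤ vInt756 v e := by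
    intro a
    by_cases ha : ∀ v : HeightOneSpectrum (𝓞 K), Valued.v (a v) ≤ 1
    · obtain ⟨r, hr⟩ := exists_int_approx756 e he a ha
      exact ⟨r, fun _ => hr⟩
    · exact ⟨0, fun h => absurd h ha⟩
  choose ρ hρ using hex
  refine ⟨fun a => Ideal.Quotient.mk _ (ρ a), fun a a' ha ha' h v => ?_⟩
  have hmem : ρ a - ρ a' ∈ Ideal.span {e} := (Ideal.Quotient.eq).1 h
  obtain ⟨s, hs⟩ := Ideal.mem_span_singleton'.1 hmem
  have h3 : Valued.v (algebraMap K (v.adicCompletion K) (algebraMap (𝓞 K) K (ρ a - ρ a')))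
      ≤ vInt756 v e := by
    rw [← hs]
    show vInt756 v (s * e) ≤ vInt756 v e
    rw [vInt_mul756]
    calc vInt756 v s * vInt756 v e ≤ 1 * vInt756 v e := mul_le_mul' (vInt_le_one756 v s) le_rfl
      _ = vInt756 v e := one_mul _
  have e5 : a v - a' v
      = (a v - algebraMap K (v.adicCompletion K) (algebraMap (𝓞 K) K (ρ a)))
        + (-(a' v - algebraMap K (v.adicCompletion K) (algebraMap (𝓞 K) K (ρ a')))
          + algebraMap K (v.adicCompletion K) (algebraMap (𝓞 K) K (ρ a - ρ a'))) := by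
    rw [map_sub, map_sub]
    ring
  rw [e5]
  refine Valuation.map_add_le _ (hρ a ha v) (Valuation.map_add_le _ ?_ h3)
  rw [Valuation.map_neg]
  exact hρ a' ha' v

/-! ## 3. The systems exist -/

theorem integral_of_inLevelGroup756 {𝔫 : Ideal (𝓞 K)} {u : G K} (hu : InLevelGroup 𝔫 u)
    (v : HeightOneSpectrum (𝓞 K)) (i j : Fin 2) : Valued.v (finComp v u i j) ≤ 1 := by
  have h := T2.H907.idealClosure_subset_integers907 𝔫 v (hu.2 v i j).1
  rw [HeightOneSpectrum.mem_adicCompletionIntegers] at h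
  have e : finComp v u i j = (finComp v u - 1) i j + (1 : Matrix (Fin 2) (Fin 2) _) i j := by
    rw [Matrix.sub_apply]; ring
  rw [e]
  refine Valuation.map_add_le _ h ?_
  by_cases hij : i = j
  · subst hij
    rw [Matrix.one_apply_eq, Valuation.map_one]
  · rw [Matrix.one_apply_ne hij, Valuation.map_zero]
    exact zero_le

/-- `u⁻¹ u' ≡ 1` if `u ≡ u'`, for integral `u⁻¹`. -/
theorem inv_mul_sub_one_val756 (v : HeightOneSpectrum (𝓞 K)) {u u' : G K} {ν : ℤᵐ⁰}
    (hu : ∀ i j, Valued.v (finComp v u⁻¹ i j) ≤ 1)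
    (h : ∀ i j, Valued.v (finComp v u i j - finComp v u' i j) ≤ ν) (i j : Fin 2) :
    Valued.v ((finComp v (u⁻¹ * u') - 1) i j) ≤ ν := by
  have e : finComp v (u⁻¹ * u') - 1 = finComp v u⁻¹ * (finComp v u' - finComp v u) := by
    rw [Matrix.mul_sub, finComp_inv_mul756, finComp_mul756]
  have key : ∀ a : Fin 2,
      Valued.v (finComp v u⁻¹ i a * (finComp v u' - finComp v u) a j) ≤ ν := by
    intro a
    rw [map_mul, Matrix.sub_apply, Valuation.map_sub_swap]
    calc Valued.v (finComp v u⁻¹ i a) * Valued.v (finComp v u a j - finComp v u' a j)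
        ≤ 1 * ν := mul_le_mul' (hu i a) (h a j)
      _ = ν := one_mul _
  rw [e, Matrix.mul_apply, Fin.sum_univ_two]
  exact Valuation.map_add_le _ (key 0) (key 1)

/-- **THE DOUBLE COSETS `U(𝔫) g U(𝔫)` ARE FINITE** (`𝔫 ≠ 0`). -/
theorem exists_dblCosetSystem_of_ne_bot756 (𝔫 : Ideal (𝓞 K)) (h𝔫 : 𝔫 ≠ ⊥) (g : G K)
    (hg : ∀ w : InfinitePlace K, TrivAtInf w g) :
    ∃ H : Finset (G K), IsDblCosetSystem 𝔫 g H := by
  obtain ⟨e, he, hconj⟩ := conj_level756 𝔫 h𝔫 g hg
  obtain ⟨π, hπ⟩ := exists_finite_inv756 e he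
  have : Finite (𝓞 K ⧸ Ideal.span {e}) :=
    Ideal.finiteQuotientOfFreeOfNeBot _ (by simpa using he)
  refine exists_system_abs756 (InLevelGroup 𝔫) (inLevelGroup_one756 𝔫)
    (fun a b ha hb => inLevelGroup_mul756 ha hb) (fun a ha => inLevelGroup_inv756 ha) g
    (F := Fin 2 → Fin 2 → 𝓞 K ⧸ Ideal.span {e})
    (fun u i j => π ((u : Matrix (Fin 2) (Fin 2) (Adl K)) i j).2) ?_
  intro u u' hu hu' hπu
  have hd : ∀ (v : HeightOneSpectrum (𝓞 K)) (i j : Fin 2),
      Valued.v (finComp v u i j - finComp v u' i j) ≤ vInt756 v e := by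
    intro v i j
    exact hπ _ _ (fun v' => integral_of_inLevelGroup756 hu v' i j)
      (fun v' => integral_of_inLevelGroup756 hu' v' i j) (congrFun (congrFun hπu i) j) v
  have hd' : ∀ (v : HeightOneSpectrum (𝓞 K)) (i j : Fin 2),
      Valued.v (finComp v u' i j - finComp v u i j) ≤ vInt756 v e := by
    intro v i j
    rw [← Valuation.map_neg, neg_sub]
    exact hd v i j
  have hui := inLevelGroup_inv756 hu
  have hui' := inLevelGroup_inv756 hu'
  refine hconj (u⁻¹ * u')
    (fun w' => trivAtInf_mul756 (trivAtInf_inv756 (hu.1 w')) (hu'.1 w'))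
    (fun v i j => inv_mul_sub_one_val756 v
      (fun a b => integral_of_inLevelGroup756 hui v a b) (hd v) i j)
    (fun v i j => ?_)
  have e2 : (u⁻¹ * u')⁻¹ = u'⁻¹ * u := by group
  rw [e2]
  exact inv_mul_sub_one_val756 v (fun a b => integral_of_inLevelGroup756 hui' v a b) (hd' v) i j

end Fermat.Agent.LT.T7.H756
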