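import Mathlib
import Fermat.Agent.LT.H556.A0

/-!
# The closure of a nonzero ideal in `K_v` is a ball (helper756, OFF-MAIN)

Mathlib + the definition `A0.idealClosure` only.

* `idealClosure_eq_ball756` : for `b ∈ 𝔫` of maximal valuation at `v`, the closure of `𝔫` in
  `K_v` is `{x | v x ≤ v b}`;
* `exists_levelExp756` : for `𝔫 ≠ ⊥` there is `m : places → ℕ` with
  `x ∈ idealClosure 𝔫 v ↔ v x ≤ exp (- m v)`, and `d ≤ m v` whenever `𝔫 ≤ v ^ d`.

(The density of `𝓞 K` in `𝒪_v` and the stability of the closure under `𝒪_v` are the proofs of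
helper981 `T7/H981/FinIndex.lean`, restated under fresh names.)
-/

set_option autoImplicit false

open IsDedekindDomain NumberField

noncomputable section

namespace Fermat.Agent.LT.T7.H756

open Fermat.Agent.LT.H556 Fermat.Agent.LT.H556.A0 Fermat.Agent.LT

variable {F : Type} [Field F] [NumberField F]

/-- The map `𝓞 F → F_v`. -/
abbrev toC756 (v : HeightOneSpectrum (𝓞 F)) (x : 𝓞 F) : v.adicCompletion F :=
  algebraMap F (v.adicCompletion F) (algebraMap (𝓞 F) F x)

theorem valued_algebraMapC756 (v : HeightOneSpectrum (𝓞 F)) (y : F) :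
    Valued.v (algebraMap F (v.adicCompletion F) y) = v.valuation F y :=
  HeightOneSpectrum.valuedAdicCompletion_eq_valuation' v y

theorem valued_toC756 (v : HeightOneSpectrum (𝓞 F)) (x : 𝓞 F) :
    Valued.v (toC756 v x) = v.intValuation x := by
  rw [toC756, valued_algebraMapC756, HeightOneSpectrum.valuation_of_algebraMap]

/-- `𝓞 F` is dense in `𝒪_v`. -/
theorem integers_subset_closure756 (v : HeightOneSpectrum (𝓞 F)) :
    (v.adicCompletionIntegers F : Set (v.adicCompletion F))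
      ⊆ closure (Set.range (toC756 v)) := by
  intro x hx
  rw [mem_closure_iff]
  intro U hU hxU
  have hO : IsOpen (v.adicCompletionIntegers F : Set (v.adicCompletion F)) :=
    Valued.isOpen_valuationSubring _
  obtain ⟨k, hk⟩ := (HeightOneSpectrum.denseRange_algebraMap F v).exists_mem_open
    (hU.inter hO) ⟨x, hxU, hx⟩
  have hkU : algebraMap F (v.adicCompletion F) k ∈ U := hk.1
  have hk1 : v.valuation F k ≤ 1 := by
    rw [← valued_algebraMapC756]
    exact (HeightOneSpectrum.mem_adicCompletionIntegers (𝓞 F) F v).1 hk.2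
  obtain ⟨γ, hγ⟩ := (Valued.mem_nhds (R := v.adicCompletion F)).1 (hU.mem_nhds hkU)
  have hγ0 : MonoidWithZeroHom.ValueGroup₀.embedding γ.1 ≠ 0 := by
    simp
  obtain ⟨a, ha⟩ := HeightOneSpectrum.exists_valuation_sub_lt_of_integer v hk1
    (Units.mk0 _ hγ0)
  refine ⟨toC756 v a, hγ ?_, a, rfl⟩
  show (Valued.v : Valuation (v.adicCompletion F) _).restrict
    (toC756 v a - algebraMap F (v.adicCompletion F) k) < γ.1
  rw [Valuation.restrict_lt_iff_lt_embedding]
  have e : toC756 v a - algebraMap F (v.adicCompletion F) k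
      = algebraMap F (v.adicCompletion F) (algebraMap (𝓞 F) F a - k) := by
    rw [map_sub]
  rw [e, valued_algebraMapC756]
  exact ha

variable (𝔫 : Ideal (𝓞 F)) (v : HeightOneSpectrum (𝓞 F))

theorem toC756_mem_idealClosure {a : 𝓞 F} (ha : a ∈ 𝔫) :
    toC756 v a ∈ idealClosure 𝔫 v :=
  subset_closure ⟨a, ha, rfl⟩

theorem mul_mem_idealClosure756 {x y : v.adicCompletion F}
    (hx : x ∈ v.adicCompletionIntegers F) (hy : y ∈ idealClosure 𝔫 v) :
    x * y ∈ idealClosure 𝔫 v := by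
  refine map_mem_closure₂ continuous_mul (integers_subset_closure756 v hx) hy ?_
  rintro _ ⟨a, rfl⟩ _ ⟨b, hb, rfl⟩
  exact ⟨a * b, 𝔫.mul_mem_left a hb, by simp [toC756]⟩

theorem toC756_ne_zero {a : 𝓞 F} (ha : a ≠ 0) : toC756 v a ≠ 0 := by
  intro h
  apply ha
  have h1 : algebraMap (𝓞 F) F a = 0 :=
    (map_eq_zero_iff _ (algebraMap F (v.adicCompletion F)).injective).1 h
  exact (map_eq_zero_iff _ (IsFractionRing.injective (𝓞 F) F)).1 h1

/-- **The closure of `𝔫` is the ball of radius `v b`**, `b ∈ 𝔫` of maximal valuation. -/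
theorem idealClosure_eq_ball756 {b : 𝓞 F} (hb : b ∈ 𝔫) (hb0 : b ≠ 0)
    (hmax : ∀ a ∈ 𝔫, v.intValuation a ≤ v.intValuation b) (x : v.adicCompletion F) :
    x ∈ idealClosure 𝔫 v ↔ Valued.v x ≤ v.intValuation b := by
  have hc0 : toC756 v b ≠ 0 := toC756_ne_zero v hb0
  have hvc : Valued.v (toC756 v b) = v.intValuation b := valued_toC756 v b
  have hvc0 : Valued.v (toC756 v b) ≠ 0 := (Valuation.ne_zero_iff _).2 hc0
  -- the ball as a preimage of the integers
  have hball : ∀ y : v.adicCompletion F,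
      Valued.v y ≤ v.intValuation b ↔ y * (toC756 v b)⁻¹ ∈ v.adicCompletionIntegers F := by
    intro y
    rw [HeightOneSpectrum.mem_adicCompletionIntegers, map_mul, map_inv₀, ← hvc,
      mul_inv_le_iff₀ (zero_lt_iff.2 hvc0), one_mul]
  constructor
  · intro hx
    have hcl : IsClosed {y : v.adicCompletion F |
        y * (toC756 v b)⁻¹ ∈ v.adicCompletionIntegers F} :=
      (Valued.isClosed_valuationSubring (v.adicCompletion F)).preimage
        (continuous_id.mul continuous_const)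
    have hsub : ((fun a : 𝓞 F => algebraMap F (v.adicCompletion F) (algebraMap (𝓞 F) F a)) ''
        (𝔫 : Set (𝓞 F))) ⊆ {y : v.adicCompletion F |
          y * (toC756 v b)⁻¹ ∈ v.adicCompletionIntegers F} := by
      rintro _ ⟨a, ha, rfl⟩
      show toC756 v a * (toC756 v b)⁻¹ ∈ v.adicCompletionIntegers F
      rw [← hball, valued_toC756]
      exact hmax a ha
    exact (hball x).2 (closure_minimal hsub hcl hx)
  · intro hx
    have h1 := mul_mem_idealClosure756 𝔫 v ((hball x).1 hx) (toC756_mem_idealClosure 𝔫 v hb)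
    rwa [mul_assoc, inv_mul_cancel₀ hc0, mul_one] at h1

/-- **The exponents of a nonzero ideal.** -/
theorem exists_levelExp756 (h𝔫 : 𝔫 ≠ ⊥) :
    ∃ m : HeightOneSpectrum (𝓞 F) → ℕ,
      (∀ (v : HeightOneSpectrum (𝓞 F)) (x : v.adicCompletion F),
        x ∈ idealClosure 𝔫 v ↔ Valued.v x ≤ WithZero.exp (-(m v : ℤ))) ∧
      ∀ (v : HeightOneSpectrum (𝓞 F)) (d : ℕ), 𝔫 ≤ v.asIdeal ^ d → d ≤ m v := by
  classical
  have key : ∀ v : HeightOneSpectrum (𝓞 F), ∃ m : ℕ,
      (∀ x : v.adicCompletion F,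
        x ∈ idealClosure 𝔫 v ↔ Valued.v x ≤ WithZero.exp (-(m : ℤ))) ∧
      ∀ d : ℕ, 𝔫 ≤ v.asIdeal ^ d → d ≤ m := by
    intro v
    obtain ⟨a₀, ha₀, ha₀0⟩ := Submodule.exists_mem_ne_zero_of_ne_bot h𝔫
    have hex : ∃ k : ℕ, ∃ b ∈ 𝔫, b ≠ 0 ∧ v.intValuation b = WithZero.exp (-(k : ℤ)) :=
      ⟨_, a₀, ha₀, ha₀0, v.intValuation_if_neg ha₀0⟩
    obtain ⟨b, hb, hb0, hbv⟩ := Nat.find_spec hex
    have hmax : ∀ a ∈ 𝔫, v.intValuation a ≤ v.intValuation b := by
      intro a ha
      by_cases ha0 : a = 0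
      · rw [ha0, map_zero]; exact zero_le
      · have hk : Nat.find hex ≤ _ := Nat.find_min' hex ⟨a, ha, ha0, v.intValuation_if_neg ha0⟩
        rw [hbv, v.intValuation_if_neg ha0, WithZero.exp_le_exp]
        omega
    refine ⟨Nat.find hex, fun x => ?_, fun d hd => ?_⟩
    · rw [← hbv]
      exact idealClosure_eq_ball756 𝔫 v hb hb0 hmax x
    · have h1 : v.intValuation b ≤ WithZero.exp (-(d : ℤ)) :=
        (v.intValuation_le_pow_iff_mem b d).2 (hd hb)
      rw [hbv, WithZero.exp_le_exp] at h1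
      omega
  choose m hm using key
  exact ⟨m, fun v x => (hm v).1 x, fun v d hd => (hm v).2 d hd⟩

end Fermat.Agent.LT.T7.H756

end
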