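import Mathlib
import Fermat.Agent.LT.T7.H57.BaseQSpec
import Fermat.Agent.LT.T7.H756.DblExists
import Fermat.Agent.LT.T7.H756.LvlCore
import Fermat.Agent.LT.T7.H340.IwKit
import Fermat.Agent.LT.H129.HeckeExists

/-!
# LT T7.L2Q.1.H2a `BaseQC57`: the small leaves `SysQC57`, `LevFnC57`, `DivSetC57`
# (helper756, OFF-MAIN)

VERBATIM against helper57 `T7/H57/BaseQSpec.lean` (c0b5f444), UNCONDITIONAL.

* `divSetC756 K : CQ57.DivSetC57 K` (`Ideal.finite_factors`);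
* `levFnC756 K : CQ57.LevFnC57 K` (`exists_levelExp756`: the closure of a nonzero ideal in
  `K_v` is a ball);
* `sysQC756 F : CQ57.SysQC57 F` (`exists_dblCosetSystem_of_ne_bot756`, topology-free;
  `exists_iwCosetSystem340` of helper340; `exists_scalarUniformizer129` of helper129);
* `haarRC756 : CQ57.HaarRC57`, `haarCC756 : CQ57.HaarCC57` (Mathlib: `GL₂` closed in
  `M₂ × M₂ᵐᵒᵖ`, `Measure.haar`; the route of helper116 `haarCplxC116`).
-/

set_option autoImplicit false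
set_option linter.style.haveILetI false

open AutomorphicForm IsDedekindDomain NumberField

noncomputable section

namespace Fermat.Agent.LT.T7.H756

open Fermat.Agent.LT.H556 Fermat.Agent.LT.H556.A0 Fermat.Agent.LT.T7
open Fermat.Agent.LT.T7.H305 Fermat.Agent.LT.T7.H893 Fermat.Agent.LT.T7.H962

/-- **LEAF `DivSetC57`.** -/
theorem divSetC756 (K : Type) [Field K] [NumberField K] : CQ57.DivSetC57 K := by
  classical
  intro 𝔫 h𝔫
  refine ⟨(Ideal.finite_factors (show 𝔫 ≠ 0 from h𝔫)).toFinset, fun v => ?_⟩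
  rw [Set.Finite.mem_toFinset]
  exact Iff.rfl

/-- **LEAF `LevFnC57`.** -/
theorem levFnC756 (K : Type) [Field K] [NumberField K] : CQ57.LevFnC57 K := by
  intro 𝔫 h𝔫
  obtain ⟨m, hm, -⟩ := exists_levelExp756 𝔫 h𝔫
  exact ⟨m, hm⟩

/-- **LEAF `SysQC57`.** -/
theorem sysQC756 (F : Type) [Field F] [NumberField F] : CQ57.SysQC57 F := by
  intro Φ B hB g hg
  obtain ⟨𝔫₀, h0, h1, _, _⟩ := hB.base_level
  have hN : B.𝔑₀ ≠ ⊥ := by
    rw [h1]
    intro hbot
    apply h0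
    unfold upI at hbot
    exact (Ideal.map_eq_bot_iff_of_injective
      (FaithfulSMul.algebraMap_injective (𝓞 ℚ) (𝓞 F))).1 hbot
  obtain ⟨Hg, hHg⟩ := exists_dblCosetSystem_of_ne_bot756 B.𝔑₀ hN g hg.1
  obtain ⟨H', hH'⟩ := Fermat.Agent.LT.T7.H340.exists_iwCosetSystem340 (w := B.o 0)
  obtain ⟨z', hz'⟩ := Fermat.Agent.LT.H129.exists_scalarUniformizer129 (v := B.o 0)
  obtain ⟨H, hH⟩ := Fermat.Agent.LT.T7.H340.exists_iwCosetSystem340 (w := B.u)
  obtain ⟨z, hz⟩ := Fermat.Agent.LT.H129.exists_scalarUniformizer129 (v := B.u)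
  exact ⟨Hg, H', z', H, z, ⟨hHg, hH', hz', hH, hz⟩⟩

/-- `GL₂(𝕜)` is locally compact for a locally compact topological field `𝕜` (closed in
`M₂ × M₂ᵐᵒᵖ`). -/
theorem locallyCompactSpace_gl756 (𝕜 : Type) [Field 𝕜] [TopologicalSpace 𝕜]
    [IsTopologicalRing 𝕜] [T1Space 𝕜] [LocallyCompactSpace 𝕜] :
    LocallyCompactSpace (GL (Fin 2) 𝕜) := by
  haveI : LocallyCompactSpace (Matrix (Fin 2) (Fin 2) 𝕜) :=
    (inferInstance : LocallyCompactSpace (Fin 2 → Fin 2 → 𝕜))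
  haveI : LocallyCompactSpace (Matrix (Fin 2) (Fin 2) 𝕜)ᵐᵒᵖ :=
    (MulOpposite.opHomeomorph
      (M := Matrix (Fin 2) (Fin 2) 𝕜)).symm.isClosedEmbedding.locallyCompactSpace
  exact (Units.isClosedEmbedding_embedProduct
    (α := Matrix (Fin 2) (Fin 2) 𝕜)).locallyCompactSpace

/-- **LEAF `HaarRC57`.** -/
theorem haarRC756 : CQ57.HaarRC57 := by
  letI : MeasurableSpace (GL (Fin 2) ℝ) := borel _
  haveI : BorelSpace (GL (Fin 2) ℝ) := ⟨rfl⟩
  haveI := locallyCompactSpace_gl756 ℝ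
  exact ⟨MeasureTheory.Measure.haar, inferInstance⟩

/-- **LEAF `HaarCC57`.** -/
theorem haarCC756 : CQ57.HaarCC57 := by
  letI : MeasurableSpace (GL (Fin 2) ℂ) := borel _
  haveI : BorelSpace (GL (Fin 2) ℂ) := ⟨rfl⟩
  haveI := locallyCompactSpace_gl756 ℂ
  exact ⟨MeasureTheory.Measure.haar, inferInstance⟩

end Fermat.Agent.LT.T7.H756

end
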