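import Mathlib
import Fermat.Agent.LT.T7.H340.IwLocal
import Fermat.Agent.LT.H129.LocalDecomp

/-!
# The shape of the elements of `I diag(ϖ^m, 1) I` (helper756, OFF-MAIN)

Local algebra of `2 × 2` matrices over a valued field (value group `ℤᵐ⁰`); Mathlib + the local
kit of helper340 / helper129.

`IsSh756 v m M`: `M` integral, `v (det M) = exp (-m)`, `v (M 1 0) < 1`, `v (M 1 1) = 1`.
This is the double coset `I diag(c, 1) I`, `v c = exp (-m)` (`isSh_iff_dbl756`), `I` the Iwahori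
subgroup (`IsSh756 v 0`, `isIwG_iff_sh756`).

* `isSh_mul756` : `Sh(m₁) Sh(m₂) ⊆ Sh(m₁ + m₂)`;
* `exists_factor_sh756` : `Sh(m + 1) ⊆ [[π, r], [0, 1]] Sh(m)`, `r` integral;
* `val_res_of_factor756` : if `M y = M' y'` with `M, M'` of the shape of `I diag(ϖ, 1) I` and
  `y, y'` of the shape `Sh(m)` then `M`, `M'` have the same residue invariant.
-/

set_option autoImplicit false

noncomputable section

namespace Fermat.Agent.LT.T7.H756

open Fermat.Agent.LT.T7.H340 Fermat.Agent.LT.H129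

variable {F : Type*} [Field F] (v : Valuation F (WithZero (Multiplicative ℤ)))

/-- The shape of the elements of `I diag(ϖ^m, 1) I`. -/
def IsSh756 (m : ℕ) (M : Matrix (Fin 2) (Fin 2) F) : Prop :=
  (∀ i j, v (M i j) ≤ 1) ∧ v M.det = WithZero.exp (-(m : ℤ)) ∧ v (M 1 0) < 1 ∧ v (M 1 1) = 1

variable {v}

theorem isSh_mul756 {m₁ m₂ : ℕ} {M N : Matrix (Fin 2) (Fin 2) F} (hM : IsSh756 v m₁ M)
    (hN : IsSh756 v m₂ N) : IsSh756 v (m₁ + m₂) (M * N) := by
  obtain ⟨hMi, hMd, hM10, hM11⟩ := hM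
  obtain ⟨hNi, hNd, hN10, hN11⟩ := hN
  refine ⟨fun i j => ?_, ?_, ?_, ?_⟩
  · rw [Matrix.mul_apply, Fin.sum_univ_two]
    refine le_trans (Valuation.map_add _ _ _) (max_le ?_ ?_)
    · rw [map_mul]; exact mul_le_one' (hMi i 0) (hNi 0 j)
    · rw [map_mul]; exact mul_le_one' (hMi i 1) (hNi 1 j)
  · rw [Matrix.det_mul, map_mul, hMd, hNd, ← WithZero.exp_add]
    congr 1
    push_cast
    ring
  · rw [Matrix.mul_apply, Fin.sum_univ_two]
    exact lt_of_le_of_lt (Valuation.map_add _ _ _)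
      (max_lt (val_mul_lt340 hM10 (hNi 0 0)) (val_mul_lt340' (hMi 1 1) hN10))
  · rw [Matrix.mul_apply, Fin.sum_univ_two]
    have h1 : v (M 1 0 * N 0 1) < 1 := val_mul_lt340 hM10 (hNi 0 1)
    have h2 : v (M 1 1 * N 1 1) = 1 := by rw [map_mul, hM11, hN11, one_mul]
    rw [Valuation.map_add_eq_of_lt_right _ (by rw [h2]; exact h1), h2]

theorem isSh_zero_mul756 {m : ℕ} {M N : Matrix (Fin 2) (Fin 2) F} (hM : IsSh756 v 0 M)
    (hN : IsSh756 v m N) : IsSh756 v m (M * N) := by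
  have := isSh_mul756 hM hN
  rwa [zero_add] at this

theorem isSh_mul_zero756 {m : ℕ} {M N : Matrix (Fin 2) (Fin 2) F} (hM : IsSh756 v m M)
    (hN : IsSh756 v 0 N) : IsSh756 v m (M * N) := by
  have := isSh_mul756 hM hN
  rwa [add_zero] at this

/-- The shape of `diag(c, 1)`. -/
theorem isSh_diag756 {m : ℕ} {c : F} (hc : v c = WithZero.exp (-(m : ℤ))) :
    IsSh756 v m !![c, 0; 0, 1] := by
  have hc1 : v c ≤ 1 := by
    rw [hc, ← WithZero.exp_zero, WithZero.exp_le_exp]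
    omega
  refine ⟨fun i j => ?_, ?_, ?_, ?_⟩
  · fin_cases i <;> fin_cases j <;> simp [hc1]
  · rw [Matrix.det_fin_two_of]
    simpa using hc
  · simp
  · simp

/-- The Iwahori subgroup is the shape of depth `0`. -/
theorem isSh_of_isIwG756 {M : GL (Fin 2) F} (h : IsIwG340 v M) :
    IsSh756 v 0 (M : Matrix (Fin 2) (Fin 2) F) := by
  refine ⟨h.1, ?_, h.2.2, h.val_11⟩
  rw [h.val_det]
  simp

theorem isIwG_of_isSh756 {M : GL (Fin 2) F} (h : IsSh756 v 0 (M : Matrix (Fin 2) (Fin 2) F)) :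
    IsIwG340 v M := by
  obtain ⟨hi, hd, h10, h11⟩ := h
  have hd1 : v (M : Matrix (Fin 2) (Fin 2) F).det = 1 := by
    rw [hd]; simp
  refine ⟨hi, fun i j => ?_, h10⟩
  have e : ((M⁻¹ : GL (Fin 2) F) : Matrix (Fin 2) (Fin 2) F) i j
      = (Matrix.adjugate (M : Matrix (Fin 2) (Fin 2) F)) i j
        / (M : Matrix (Fin 2) (Fin 2) F).det := by
    rw [Matrix.coe_units_inv, Matrix.inv_def, Matrix.smul_apply, smul_eq_mul,
      Ring.inverse_eq_inv', div_eq_inv_mul]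
  rw [e, map_div₀, hd1, div_one, Matrix.adjugate_fin_two]
  fin_cases i <;> fin_cases j <;> simp [hi]

theorem isIwG_iff_sh756 (M : GL (Fin 2) F) :
    IsIwG340 v M ↔ IsSh756 v 0 (M : Matrix (Fin 2) (Fin 2) F) :=
  ⟨isSh_of_isIwG756, isIwG_of_isSh756⟩

/-- The shape of the elements of `I diag(ϖ, 1) I` of helper340 is the shape of depth `1`. -/
theorem isSh_of_isIwT756 {M : GL (Fin 2) F} (h : IsIwT340 v M) :
    IsSh756 v 1 (M : Matrix (Fin 2) (Fin 2) F) :=
  ⟨h.1, by rw [h.2.1]; rfl, h.2.2.2.1, h.2.2.2.2⟩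

/-- **Factorisation**: an element of the shape of depth `m + 1` is `[[π, r], [0, 1]] y` with
`r` integral and `y` of the shape of depth `m`. -/
theorem exists_factor_sh756 {m : ℕ} {π : F} (hπ : v π = WithZero.exp (-1 : ℤ))
    {x : Matrix (Fin 2) (Fin 2) F} (hx : IsSh756 v (m + 1) x) :
    ∃ (r : F) (y : Matrix (Fin 2) (Fin 2) F), v r ≤ 1 ∧ IsSh756 v m y ∧
      x = !![π, r; 0, 1] * y := by
  obtain ⟨hi, hd, h10, h11⟩ := hx
  have hπ0 : π ≠ 0 := by
    intro h; rw [h, map_zero] at hπ; exact WithZero.exp_ne_zero.symm hπ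
  have hu0 : x 1 1 ≠ 0 := by
    intro h; rw [h, map_zero] at h11; exact zero_ne_one h11
  have hdv : v (x.det / (x 1 1 * π)) = WithZero.exp (-(m : ℤ)) := by
    rw [map_div₀, map_mul, hd, h11, one_mul, hπ, ← WithZero.exp_sub]
    congr 1
    push_cast
    ring
  have hdv1 : v (x.det / (x 1 1 * π)) ≤ 1 := by
    rw [hdv, ← WithZero.exp_zero, WithZero.exp_le_exp]
    omega
  refine ⟨x 0 1 / x 1 1, !![x.det / (x 1 1 * π), 0; x 1 0, x 1 1], ?_, ⟨?_, ?_, ?_, ?_⟩, ?_⟩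
  · rw [map_div₀, h11, div_one]; exact hi 0 1
  · intro i j
    fin_cases i <;> fin_cases j
    · exact hdv1
    · simp
    · exact hi 1 0
    · exact hi 1 1
  · rw [Matrix.det_fin_two_of, zero_mul, sub_zero]
    have e : x.det / (x 1 1 * π) * x 1 1 = x.det / π := by
      field_simp
    rw [e, map_div₀, hd, hπ, ← WithZero.exp_sub]
    congr 1
    push_cast
    ring
  · simpa using h10
  · simpa using h11
  · rw [Matrix.det_fin_two]
    ext i j
    fin_cases i <;> fin_cases j <;> simp [Matrix.mul_apply, Fin.sum_univ_two] <;> field_simp <;>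
      ring

/-- **Uniqueness**: the residue invariant of the first factor is determined. -/
theorem val_res_of_factor756 {m : ℕ} {M M' : GL (Fin 2) F} (hM : IsIwT340 v M)
    (hM' : IsIwT340 v M') {y y' : Matrix (Fin 2) (Fin 2) F} (hy : IsSh756 v m y)
    (hy' : IsSh756 v m y')
    (h : (M : Matrix (Fin 2) (Fin 2) F) * y = (M' : Matrix (Fin 2) (Fin 2) F) * y') :
    v ((M : Matrix (Fin 2) (Fin 2) F) 0 1 * (M' : Matrix (Fin 2) (Fin 2) F) 1 1
      - (M' : Matrix (Fin 2) (Fin 2) F) 0 1 * (M : Matrix (Fin 2) (Fin 2) F) 1 1) < 1 := by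
  obtain ⟨hint, -, h00, h10, -⟩ := hM
  obtain ⟨hint', -, h00', h10', -⟩ := hM'
  obtain ⟨hyi, -, -, hy11⟩ := hy
  obtain ⟨hyi', -, -, hy11'⟩ := hy'
  have E1 := congrFun (congrFun h 0) 1
  have E2 := congrFun (congrFun h 1) 1
  rw [Matrix.mul_apply, Matrix.mul_apply, Fin.sum_univ_two, Fin.sum_univ_two] at E1 E2
  set A := (M : Matrix (Fin 2) (Fin 2) F) with hA
  set B := (M' : Matrix (Fin 2) (Fin 2) F) with hB
  have key : (A 0 1 * B 1 1 - B 0 1 * A 1 1) * (y 1 1 * y' 1 1)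
      = A 0 1 * y 1 1 * (A 1 0 * y 0 1 - B 1 0 * y' 0 1)
        - (A 0 0 * y 0 1 - B 0 0 * y' 0 1) * (A 1 1 * y 1 1) := by
    linear_combination (A 1 1 * y 1 1) * E1 - (A 0 1 * y 1 1) * E2
  have hv : v ((A 0 1 * B 1 1 - B 0 1 * A 1 1) * (y 1 1 * y' 1 1))
      = v (A 0 1 * B 1 1 - B 0 1 * A 1 1) := by
    rw [map_mul, map_mul, hy11, hy11', mul_one, mul_one]
  rw [← hv, key]
  have t1 : v (A 1 0 * y 0 1 - B 1 0 * y' 0 1) < 1 :=
    lt_of_le_of_lt (Valuation.map_sub _ _ _)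
      (max_lt (val_mul_lt340 h10 (hyi 0 1)) (val_mul_lt340 h10' (hyi' 0 1)))
  have t2 : v (A 0 0 * y 0 1 - B 0 0 * y' 0 1) < 1 :=
    lt_of_le_of_lt (Valuation.map_sub _ _ _)
      (max_lt (val_mul_lt340 h00 (hyi 0 1)) (val_mul_lt340 h00' (hyi' 0 1)))
  have s1 : v (A 0 1 * y 1 1) ≤ 1 := by
    rw [map_mul]; exact mul_le_one' (hint 0 1) (hyi 1 1)
  have s2 : v (A 1 1 * y 1 1) ≤ 1 := by
    rw [map_mul]; exact mul_le_one' (hint 1 1) (hyi 1 1)
  exact lt_of_le_of_lt (Valuation.map_sub _ _ _)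
    (max_lt (val_mul_lt340' s1 t1) (val_mul_lt340 t2 s2))

theorem isIwG340_upper_756 {r : F} (hr : v r ≤ 1) : IsIwG340 v (upperU129 r) := by
  apply isIwG_of_isSh756
  simp only [upperU129, coe_mkGL129]
  refine ⟨fun i j => ?_, ?_, ?_, ?_⟩
  · fin_cases i <;> fin_cases j <;> simp [hr]
  · rw [Matrix.det_fin_two_of]
    simp
  · simp
  · simp

/-- **The double coset**: the shape of depth `m` is `I diag(c, 1) I`, `v c = exp (-m)`. -/
theorem isSh_iff_dbl756 (m : ℕ) (x : Matrix (Fin 2) (Fin 2) F) :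
    IsSh756 v m x ↔ ∃ (a b : GL (Fin 2) F) (c : F), IsIwG340 v a ∧ IsIwG340 v b ∧
      v c = WithZero.exp (-(m : ℤ)) ∧
      x = (a : Matrix (Fin 2) (Fin 2) F) * !![c, 0; 0, 1] * (b : Matrix (Fin 2) (Fin 2) F) := by
  constructor
  · rintro ⟨hi, hd, h10, h11⟩
    have hu0 : x 1 1 ≠ 0 := by
      intro h; rw [h, map_zero] at h11; exact zero_ne_one h11
    have hr : v (x 0 1 / x 1 1) ≤ 1 := by
      rw [map_div₀, h11, div_one]; exact hi 0 1
    have hb : IsSh756 v 0 ((mkGL129 1 0 (x 1 0) (x 1 1) (by simpa using hu0) : GL (Fin 2) F) :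
        Matrix (Fin 2) (Fin 2) F) := by
      rw [coe_mkGL129]
      refine ⟨fun i j => ?_, ?_, ?_, ?_⟩
      · fin_cases i <;> fin_cases j <;> simp [hi 1 0, hi 1 1]
      · rw [Matrix.det_fin_two_of]
        simpa using h11
      · simpa using h10
      · simpa using h11
    refine ⟨upperU129 (x 0 1 / x 1 1), mkGL129 1 0 (x 1 0) (x 1 1) (by simpa using hu0),
      x.det / x 1 1, isIwG340_upper_756 hr, isIwG_of_isSh756 hb, ?_, ?_⟩
    · rw [map_div₀, hd, h11, div_one]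
    · rw [Matrix.det_fin_two]
      simp only [upperU129, coe_mkGL129]
      ext i j
      fin_cases i <;> fin_cases j <;> simp [Matrix.mul_apply, Fin.sum_univ_two] <;>
        field_simp <;> ring
  · rintro ⟨a, b, c, ha, hb, hc, rfl⟩
    exact isSh_mul_zero756 (isSh_zero_mul756 (isSh_of_isIwG756 ha) (isSh_diag756 hc))
      (isSh_of_isIwG756 hb)

end Fermat.Agent.LT.T7.H756

end
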