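import Mathlib
import Fermat.Agent.LT.T7.H563.PTSpec
import Fermat.Agent.LT.T6.H777.Lvl
import Fermat.Agent.LT.H129.Local

/-!
# LT T7.PT.5 `LsumDblC563` (helper756, OFF-MAIN)

`lsumDblC756 (K) : PT563.LsumDblC563 K` VERBATIM, UNCONDITIONAL: the sum of the left translates
of a pure tensor over a system of representatives of `U(𝔑₀) g U(𝔑₀) / U(𝔑₀)` is the pure tensor
with the double coset functions of `g` at the places of `S₀`.

Proof.  `U(𝔑₀)` is the product of the local groups `T6.InU (n₀ v)` (`inLevelGroup_iff_inU756`).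
A member `h = u₁ g u₂` of the system is trivial at infinity, lies in `U(n₀ v)` outside `S₀` and
in `U g_v U` at every `v`; so the term of `h` at `y` is the product of the indicator of
`h_v⁻¹ y_v ∈ U(n₀ v)`, `v ∈ S₀`, and of the value of the tensor outside `S₀`.  If `y_v ∈ U g_v U`
for all `v ∈ S₀` there is exactly one member with `h_v⁻¹ y_v ∈ U` for all `v ∈ S₀` (existence:
glue the left factors, `exists_glue756`, and use the covering property; uniqueness: the
separation property); otherwise there is none.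
-/

set_option autoImplicit false

open AutomorphicForm IsDedekindDomain NumberField

noncomputable section

namespace Fermat.Agent.LT.T7.H756

open Fermat.Agent.LT.H556 Fermat.Agent.LT.H556.A0 Fermat.Agent.LT.T7
open Fermat.Agent.LT.T7.H305 Fermat.Agent.LT.T7.H893 Fermat.Agent.LT.H129
open Fermat.Agent.LT

variable {K : Type} [Field K] [NumberField K]

/-! ## 1. Components -/

theorem coe_finGL756 (v : HeightOneSpectrum (𝓞 K)) (x : G K) :
    ((finGL305 v x : GL (Fin 2) (v.adicCompletion K)) :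
      Matrix (Fin 2) (Fin 2) (v.adicCompletion K)) = finComp v x := rfl

theorem coe_finGL_inv756 (v : HeightOneSpectrum (𝓞 K)) (x : G K) :
    (((finGL305 v x)⁻¹ : GL (Fin 2) (v.adicCompletion K)) :
      Matrix (Fin 2) (Fin 2) (v.adicCompletion K)) = finComp v x⁻¹ := by
  rw [← map_inv, coe_finGL756]

theorem coe_infGL756 (w : InfinitePlace K) (x : G K) :
    ((infGL305 w x : GL (Fin 2) ℂ) : Matrix (Fin 2) (Fin 2) ℂ) = infComp w x := rfl

theorem finGL_eq_finCompHom756 (v : HeightOneSpectrum (𝓞 K)) (x : G K) :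
    finGL305 v x = finCompHom129 v x :=
  Units.ext ((coe_finGL756 v x).trans (coe_finCompHom129 v x).symm)

theorem trivAtFin_iff_finGL756 (v : HeightOneSpectrum (𝓞 K)) (x : G K) :
    TrivAtFin v x ↔ finGL305 v x = 1 := by
  constructor
  · intro h
    exact Units.ext (by rw [coe_finGL756]; exact h)
  · intro h
    have := congrArg (fun u : GL (Fin 2) (v.adicCompletion K) =>
      (u : Matrix (Fin 2) (Fin 2) (v.adicCompletion K))) h
    exact this

theorem trivAtInf_iff_infGL756 (w : InfinitePlace K) (x : G K) :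
    TrivAtInf w x ↔ infGL305 w x = 1 := by
  constructor
  · intro h
    apply Units.ext
    rw [coe_infGL756]
    ext i j
    show InfinitePlace.Completion.extensionEmbedding w
      (((x : Matrix (Fin 2) (Fin 2) (Adl K)) i j).1 w) = _
    rw [h i j]
    by_cases hij : i = j
    · subst hij; simp
    · simp [Matrix.one_apply, hij]
  · intro h i j
    have h1 := congrArg (fun u : GL (Fin 2) ℂ => (u : Matrix (Fin 2) (Fin 2) ℂ) i j) h
    have h2 : InfinitePlace.Completion.extensionEmbedding w
        (((x : Matrix (Fin 2) (Fin 2) (Adl K)) i j).1 w)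
        = InfinitePlace.Completion.extensionEmbedding w
          ((1 : Matrix (Fin 2) (Fin 2) w.Completion) i j) := by
      refine Eq.trans h1 ?_
      by_cases hij : i = j
      · subst hij; simp
      · simp [Matrix.one_apply, hij]
    exact (InfinitePlace.Completion.extensionEmbedding w).injective h2

theorem finGL_locFin_same756 (v : HeightOneSpectrum (𝓞 K))
    (a : GL (Fin 2) (v.adicCompletion K)) : finGL305 v (locFin129 v a) = a := by
  rw [finGL_eq_finCompHom756, finCompHom129_locFin129]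

theorem finGL_locFin_ne756 {v v' : HeightOneSpectrum (𝓞 K)} (h : v' ≠ v)
    (a : GL (Fin 2) (v.adicCompletion K)) : finGL305 v' (locFin129 v a) = 1 := by
  rw [finGL_eq_finCompHom756, finCompHom129_locFin129_of_ne v a h]

theorem infGL_locFin756 (w : InfinitePlace K) (v : HeightOneSpectrum (𝓞 K))
    (a : GL (Fin 2) (v.adicCompletion K)) : infGL305 w (locFin129 v a) = 1 :=
  (trivAtInf_iff_infGL756 w _).1 ((isLocalAtFin_locFin129 v a).1 w)

/-- **Glueing**: an element of `GL₂(𝔸_K)` with given components at the places of `S`, trivial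
elsewhere. -/
theorem exists_glue756 (S : Finset (HeightOneSpectrum (𝓞 K)))
    (a : ∀ v : HeightOneSpectrum (𝓞 K), GL (Fin 2) (v.adicCompletion K)) :
    ∃ u : G K, (∀ w : InfinitePlace K, infGL305 w u = 1) ∧
      (∀ v ∈ S, finGL305 v u = a v) ∧ ∀ v, v ∉ S → finGL305 v u = 1 := by
  classical
  induction S using Finset.induction_on with
  | empty =>
    exact ⟨1, fun w => map_one _, fun v hv => absurd hv (Finset.notMem_empty v),
      fun v _ => map_one _⟩
  | insert v₀ S hv₀ ih =>
    obtain ⟨u, hu1, hu2, hu3⟩ := ih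
    refine ⟨locFin129 v₀ (a v₀) * u, fun w => ?_, fun v hv => ?_, fun v hv => ?_⟩
    · rw [map_mul, infGL_locFin756, hu1 w, mul_one]
    · rw [map_mul]
      rcases Finset.mem_insert.1 hv with hvv | hvS
      · subst hvv
        rw [finGL_locFin_same756, hu3 _ hv₀, mul_one]
      · have hne : v ≠ v₀ := fun e => hv₀ (e ▸ hvS)
        rw [finGL_locFin_ne756 hne, one_mul, hu2 v hvS]
    · rw [map_mul]
      have hne : v ≠ v₀ := fun e => hv (e ▸ Finset.mem_insert_self _ _)
      have hvS : v ∉ S := fun h => hv (Finset.mem_insert_of_mem h)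
      rw [finGL_locFin_ne756 hne, one_mul, hu3 v hvS]

/-! ## 2. The level group is the product of the local groups -/

theorem inLevelGroup_iff_inU756 {𝔑₀ : Ideal (𝓞 K)} {n₀ : HeightOneSpectrum (𝓞 K) → ℕ}
    (hlev : IsLevelOf893 𝔑₀ n₀) (u : G K) :
    InLevelGroup 𝔑₀ u ↔ (∀ w : InfinitePlace K, infGL305 w u = 1) ∧
      ∀ v : HeightOneSpectrum (𝓞 K), T6.InU (n₀ v) (finGL305 v u) := by
  unfold InLevelGroup T6.InU
  refine and_congr (forall_congr' fun w => trivAtInf_iff_infGL756 w u)
    (forall_congr' fun v => forall_congr' fun i => forall_congr' fun j => ?_)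
  rw [coe_finGL756, coe_finGL_inv756, hlev v, hlev v, Matrix.sub_apply, Matrix.sub_apply]

theorem inU_zero_iff756 (v : HeightOneSpectrum (𝓞 K)) (x : G K) :
    T6.InU 0 (finGL305 v x) ↔ IsIntegralAt v x ∧ IsIntegralAt v x⁻¹ := by
  have e1 : (WithZero.exp (-((0 : ℕ) : ℤ)) : WithZero (Multiplicative ℤ)) = 1 := by simp
  have key : ∀ (A : Matrix (Fin 2) (Fin 2) (v.adicCompletion K)),
      T6.H777.Small777 0 (A - 1) ↔ ∀ i j, A i j ∈ v.adicCompletionIntegers K := by
    intro A
    constructor
    · intro h i j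
      have h2 := T6.H777.small_add777 h T6.H777.small_one777
      rw [sub_add_cancel] at h2
      rw [HeightOneSpectrum.mem_adicCompletionIntegers]
      have := h2 i j
      rwa [e1] at this
    · intro h
      refine T6.H777.small_sub777 (fun i j => ?_) T6.H777.small_one777
      rw [e1]
      exact (HeightOneSpectrum.mem_adicCompletionIntegers _ _ _).1 (h i j)
  rw [T6.H777.inU_iff777, coe_finGL756, coe_finGL_inv756, key, key]
  exact Iff.rfl

theorem inU_zero_of_inU756 {k : Type} [Field k] [Valued k (WithZero (Multiplicative ℤ))]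
    {n : ℕ} {x : GL (Fin 2) k} (h : T6.InU n x) : T6.InU 0 x := by
  rw [T6.H777.inU_iff777] at h ⊢
  exact ⟨T6.H777.small_mono777 (Nat.zero_le n) h.1, T6.H777.small_mono777 (Nat.zero_le n) h.2⟩

theorem outT_iff756 (T : Finset (HeightOneSpectrum (𝓞 K))) (x : G K) :
    OutT305 T x ↔ ∀ v : HeightOneSpectrum (𝓞 K), v ∉ T → T6.InU 0 (finGL305 v x) := by
  unfold OutT305
  exact forall_congr' fun v => forall_congr' fun _ => (inU_zero_iff756 v x).symm

theorem outT_inv_mul_iff756 {T : Finset (HeightOneSpectrum (𝓞 K))} {h : G K}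
    (hh : ∀ v : HeightOneSpectrum (𝓞 K), v ∉ T → T6.InU 0 (finGL305 v h)) (y : G K) :
    OutT305 T (h⁻¹ * y) ↔ OutT305 T y := by
  rw [outT_iff756, outT_iff756]
  refine forall_congr' fun v => forall_congr' fun hv => ?_
  rw [map_mul, map_inv]
  constructor
  · intro h1
    have := T6.H777.inU_mul777 (hh v hv) h1
    rwa [mul_inv_cancel_left] at this
  · intro h1
    exact T6.H777.inU_mul777 (T6.H777.inU_inv777 (hh v hv)) h1

/-! ## 3. The leaf -/

/-- **LEAF T7.PT.5 `LsumDblC563`.** -/
theorem lsumDblC756 (K : Type) [Field K] [NumberField K] : PT563.LsumDblC563 K := by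
  classical
  intro 𝔑₀ n₀ _ hlev g S₀ hginf hgfin Hg hsys T hST f₀ F hunit hinv y
  obtain ⟨hsys1, hsys2, hsys3⟩ := hsys
  -- local facts about the members of the system
  have hloc : ∀ h ∈ Hg, (∀ w : InfinitePlace K, infGL305 w h = 1) ∧
      (∀ v : HeightOneSpectrum (𝓞 K), v ∉ S₀ → T6.InU (n₀ v) (finGL305 v h)) ∧
      ∀ v : HeightOneSpectrum (𝓞 K), ∃ a b : GL (Fin 2) (v.adicCompletion K),
        T6.InU (n₀ v) a ∧ T6.InU (n₀ v) b ∧ finGL305 v h = a * finGL305 v g * b := by
    intro h hh
    obtain ⟨u₁, u₂, hu₁, hu₂, rfl⟩ := hsys1 h hh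
    rw [inLevelGroup_iff_inU756 hlev] at hu₁ hu₂
    refine ⟨fun w => ?_, fun v hv => ?_, fun v =>
      ⟨finGL305 v u₁, finGL305 v u₂, hu₁.2 v, hu₂.2 v, by rw [map_mul, map_mul]⟩⟩
    · rw [map_mul, map_mul, hu₁.1 w, hu₂.1 w, (trivAtInf_iff_infGL756 w g).1 (hginf w)]
      simp
    · rw [map_mul, map_mul, (trivAtFin_iff_finGL756 v g).1 (hgfin v hv), mul_one]
      exact T6.H777.inU_mul777 (hu₁.2 v) (hu₂.2 v)
  -- the term of one member
  have hterm : ∀ h ∈ Hg, pure305 T f₀ F (h⁻¹ * y) =
      if OutT305 T y then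
        (∏ v ∈ T, if v ∈ S₀ then unitFn893 (n₀ v) ((finGL305 v h)⁻¹ * finGL305 v y)
          else f₀ v (finGL305 v y)) * ∏ w : InfinitePlace K, F w (infGL305 w y)
      else 0 := by
    intro h hh
    obtain ⟨h1, h2, -⟩ := hloc h hh
    have hout : OutT305 T (h⁻¹ * y) ↔ OutT305 T y :=
      outT_inv_mul_iff756 (fun v hv => inU_zero_of_inU756 (h2 v (fun hvS => hv (hST hvS)))) y
    unfold pure305
    by_cases hy : OutT305 T y
    · rw [if_pos hy, if_pos (hout.2 hy)]
      congr 1
      · refine Finset.prod_congr rfl fun v hv => ?_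
        by_cases hvS : v ∈ S₀
        · rw [if_pos hvS, map_mul, map_inv, hunit v hvS]
        · rw [if_neg hvS, map_mul, map_inv]
          exact hinv v hv hvS _ _ (T6.H777.inU_inv777 (h2 v hvS))
      · refine Finset.prod_congr rfl fun w _ => ?_
        rw [map_mul, map_inv, h1 w, inv_one, one_mul]
    · rw [if_neg hy, if_neg (fun h' => hy (hout.1 h'))]
  show ∑ h ∈ Hg, pure305 T f₀ F (h⁻¹ * y) = _
  rw [Finset.sum_congr rfl hterm]
  unfold pure305
  by_cases hy : OutT305 T y
  swap
  · rw [if_neg hy]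
    exact Finset.sum_eq_zero fun h _ => if_neg hy
  rw [if_pos hy]
  simp only [if_pos hy]
  rw [← Finset.sum_mul]
  congr 1
  -- the combinatorial identity
  by_cases hA : ∀ v ∈ S₀, ∃ a b : GL (Fin 2) (v.adicCompletion K),
      T6.InU (n₀ v) a ∧ T6.InU (n₀ v) b ∧ finGL305 v y = a * finGL305 v g * b
  · choose! a b ha hb hab using hA
    obtain ⟨u, hu1, hu2, hu3⟩ := exists_glue756 S₀ a
    have hu : InLevelGroup 𝔑₀ u := by
      rw [inLevelGroup_iff_inU756 hlev]
      refine ⟨hu1, fun v => ?_⟩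
      by_cases hv : v ∈ S₀
      · rw [hu2 v hv]; exact ha v hv
      · rw [hu3 v hv]; exact T6.H777.inU_one777 _
    obtain ⟨h₀, hh₀, hh₀u⟩ := hsys3 u hu
    rw [inLevelGroup_iff_inU756 hlev] at hh₀u
    have hP₀ : ∀ v ∈ S₀, T6.InU (n₀ v) ((finGL305 v h₀)⁻¹ * finGL305 v y) := by
      intro v hv
      have h1 := hh₀u.2 v
      rw [map_mul, map_mul, map_inv, hu2 v hv] at h1
      have h2 := T6.H777.inU_mul777 h1 (hb v hv)
      rw [hab v hv]
      convert h2 using 1
      group
    have huniq : ∀ h ∈ Hg, h ≠ h₀ →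
        ∃ v ∈ S₀, ¬ T6.InU (n₀ v) ((finGL305 v h)⁻¹ * finGL305 v y) := by
      intro h hh hne
      by_contra hcon
      push_neg at hcon
      apply hsys2 h₀ hh₀ h hh (Ne.symm hne)
      rw [inLevelGroup_iff_inU756 hlev]
      refine ⟨fun w => ?_, fun v => ?_⟩
      · rw [map_mul, map_inv, (hloc h₀ hh₀).1 w, (hloc h hh).1 w]
        simp
      · rw [map_mul, map_inv]
        by_cases hv : v ∈ S₀
        · have h1 := T6.H777.inU_mul777 (hP₀ v hv) (T6.H777.inU_inv777 (hcon v hv))
          convert h1 using 1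
          group
        · exact T6.H777.inU_mul777 (T6.H777.inU_inv777 ((hloc h₀ hh₀).2.1 v hv))
            ((hloc h hh).2.1 v hv)
    rw [Finset.sum_eq_single h₀ (fun h hh hne => ?_) (fun hnot => absurd hh₀ hnot)]
    · refine Finset.prod_congr rfl fun v hv => ?_
      by_cases hvS : v ∈ S₀
      · rw [if_pos hvS, if_pos hvS]
        unfold unitFn893 dblFn893
        rw [if_pos (hP₀ v hvS), if_pos ⟨a v, b v, ha v hvS, hb v hvS, hab v hvS⟩]
      · rw [if_neg hvS, if_neg hvS]
    · obtain ⟨v, hv, hnot⟩ := huniq h hh hne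
      refine Finset.prod_eq_zero (hST hv) ?_
      rw [if_pos hv]
      unfold unitFn893
      rw [if_neg hnot]
  · push_neg at hA
    obtain ⟨v₀, hv₀, hno⟩ := hA
    have hR : (∏ v ∈ T, (if v ∈ S₀ then dblFn893 (n₀ v) (finGL305 v g) else f₀ v)
        (finGL305 v y)) = 0 := by
      refine Finset.prod_eq_zero (hST hv₀) ?_
      rw [if_pos hv₀]
      unfold dblFn893
      rw [if_neg]
      rintro ⟨a, b, ha, hb, hab⟩
      exact hno a b ha hb hab
    rw [hR]
    refine Finset.sum_eq_zero fun h hh => ?_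
    refine Finset.prod_eq_zero (hST hv₀) ?_
    rw [if_pos hv₀]
    unfold unitFn893
    rw [if_neg]
    intro hin
    obtain ⟨a, b, ha, hb, hab⟩ := (hloc h hh).2.2 v₀
    refine hno a (b * ((finGL305 v₀ h)⁻¹ * finGL305 v₀ y)) ha (T6.H777.inU_mul777 hb hin) ?_
    rw [← mul_assoc, ← hab, mul_inv_cancel_left]

end Fermat.Agent.LT.T7.H756

end
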