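import Mathlib
import Fermat.Agent.LT.T7.H563.PTSpec2
import Fermat.Agent.LT.T7.H756.IwShape
import Fermat.Agent.LT.T7.H756.LsumDbl
import Fermat.Agent.LT.T7.H340.IwKit

/-!
# LT T7.PT.6 `RegLPureC563` / `RegLPureQC563` (helper756, OFF-MAIN)

`regLPureC756 (K) : PT563.RegLPureC563 K`, `regLPureQC756 : PT563.RegLPureQC563` VERBATIM,
UNCONDITIONAL: the regular member `regL w z H k m` of a pure tensor with the Iwahori function at
`w` is the pure tensor with `iwRegFn563 (N w) k m` at `w`.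

Proof.  A pure tensor is `ψ(y_w) · rest(y)` with `rest` left invariant under the elements
supported at `w` (`pure_update_eq756`, `rest_tr756`); so everything is the LOCAL identity
`q^{-1/2} ∑_{h ∈ H} ψ_m (h_w⁻¹ x) = ψ_{m+1} (x)` (`iwReg_step756`), `ψ_m = iwRegFn563 q 0 m`, and
the shift by the scalar `z_w ^ k` (`iwReg_shift756`).  The double coset `I diag(ϖ^m, 1) I` is the
shape `IsSh756 m` (`IwShape.lean`); for `x` of the shape `m + 1` there is exactly one member `h`
of the system with `h_w⁻¹ x` of the shape `m` (existence: `exists_factor_sh756` + completeness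
of the Iwahori coset systems, helper340 `iwCosetSystem_complete340`; uniqueness:
`val_res_of_factor756` + `isIwG340_inv_mul` of helper340); for the other `x` there is none
(`isSh_mul756`).
-/

set_option autoImplicit false

open AutomorphicForm IsDedekindDomain NumberField

noncomputable section

namespace Fermat.Agent.LT.T7.H756

open Fermat.Agent.LT.H556 Fermat.Agent.LT.H556.A0 Fermat.Agent.LT.T7
open Fermat.Agent.LT.T7.H305 Fermat.Agent.LT.T7.H893 Fermat.Agent.LT.H129
open Fermat.Agent.LT.T7.H340 Fermat.Agent.LT.T7.MQ298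
open Fermat.Agent.LT

variable {K : Type} [Field K] [NumberField K]

/-! ## 1. The local function -/

section Local

variable {k : Type} [Field k] [Valued k T6.Γ₀]

/-- The Iwahori subgroup of helper893 is the Iwahori subgroup of helper340. -/
theorem inIw_iff756 (x : GL (Fin 2) k) : InIw893 x ↔ IsIwG340 (Valued.v : Valuation k _) x :=
  Iff.rfl

/-- The condition of `iwRegFn563` for `e = 0` is the shape of depth `m`. -/
theorem inD_zero_iff756 (m : ℕ) (x : GL (Fin 2) k) :
    (∃ (a b : GL (Fin 2) k) (c d : k), InIw893 a ∧ InIw893 b ∧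
      Valued.v c = WithZero.exp (-(m : ℤ)) ∧ Valued.v d = WithZero.exp (-(0 : ℤ)) ∧
      (x : Matrix (Fin 2) (Fin 2) k)
        = d • ((a : Matrix (Fin 2) (Fin 2) k) * !![c, 0; 0, 1]
          * (b : Matrix (Fin 2) (Fin 2) k)))
      ↔ IsSh756 (Valued.v : Valuation k _) m (x : Matrix (Fin 2) (Fin 2) k) := by
  constructor
  · rintro ⟨a, b, c, d, ha, hb, hc, hd, hx⟩
    have hd1 : Valued.v d = 1 := by rw [hd]; simp
    have hN : IsSh756 (Valued.v : Valuation k _) m
        ((a : Matrix (Fin 2) (Fin 2) k) * !![c, 0; 0, 1] * (b : Matrix (Fin 2) (Fin 2) k)) :=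
      (isSh_iff_dbl756 m _).2 ⟨a, b, c, ha, hb, hc, rfl⟩
    rw [hx]
    obtain ⟨hi, hdet, h10, h11⟩ := hN
    refine ⟨fun i j => ?_, ?_, ?_, ?_⟩
    · rw [Matrix.smul_apply, smul_eq_mul, map_mul, hd1, one_mul]; exact hi i j
    · rw [Matrix.det_smul, map_mul, map_pow, hd1, one_pow, one_mul]; exact hdet
    · rw [Matrix.smul_apply, smul_eq_mul, map_mul, hd1, one_mul]; exact h10
    · rw [Matrix.smul_apply, smul_eq_mul, map_mul, hd1, one_mul]; exact h11
  · intro h
    obtain ⟨a, b, c, ha, hb, hc, hx⟩ := (isSh_iff_dbl756 m _).1 h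
    exact ⟨a, b, c, 1, ha, hb, hc, by simp, by rw [one_smul]; exact hx⟩

open Classical in
theorem iwRegFn_zero_eq756 (q : ℕ) (m : ℕ) (x : GL (Fin 2) k) :
    PT563.iwRegFn563 q 0 m x
      = if IsSh756 (Valued.v : Valuation k _) m (x : Matrix (Fin 2) (Fin 2) k) then
          (((Real.sqrt (q : ℝ) : ℝ) : ℂ)⁻¹) ^ m else 0 := by
  unfold PT563.iwRegFn563
  exact if_congr (inD_zero_iff756 m x) rfl rfl

theorem iwRegFn_zero_zero756 (q : ℕ) : (PT563.iwRegFn563 q 0 0 : GL (Fin 2) k → ℂ) = iwFn893 := by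
  classical
  funext x
  rw [iwRegFn_zero_eq756]
  unfold iwFn893
  rw [pow_zero]
  exact if_congr ((isIwG_iff_sh756 x).symm.trans (inIw_iff756 x).symm) rfl rfl

/-- **The shift by a scalar.** -/
theorem iwReg_shift756 (q : ℕ) (m : ℕ) (e : ℤ) {c : k} (hc : Valued.v c = WithZero.exp (-1 : ℤ))
    {s : GL (Fin 2) k} (hs : (s : Matrix (Fin 2) (Fin 2) k) = Matrix.diagonal (fun _ => c))
    (x : GL (Fin 2) k) :
    PT563.iwRegFn563 q 0 m ((s ^ e)⁻¹ * x) = PT563.iwRegFn563 q e m x := by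
  classical
  have hc0 : c ≠ 0 := by
    intro h; rw [h, map_zero] at hc; exact WithZero.exp_ne_zero.symm hc
  -- `s` is the scalar `c`
  have hs' : s = Units.map (Matrix.scalar (Fin 2)).toMonoidHom (Units.mk0 c hc0) := by
    apply Units.ext
    rw [hs]
    rfl
  have hpow : (((s ^ e)⁻¹ : GL (Fin 2) k) : Matrix (Fin 2) (Fin 2) k)
      = Matrix.diagonal (fun _ => (c ^ e)⁻¹) := by
    rw [hs', ← map_zpow, ← map_inv]
    show Matrix.scalar (Fin 2) (((Units.mk0 c hc0 ^ e)⁻¹ : kˣ) : k) = _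
    rw [Units.val_inv_eq_inv_val, Units.val_zpow_eq_zpow_val]
    rfl
  have hmat : (((s ^ e)⁻¹ * x : GL (Fin 2) k) : Matrix (Fin 2) (Fin 2) k)
      = (c ^ e)⁻¹ • (x : Matrix (Fin 2) (Fin 2) k) := by
    rw [Matrix.GeneralLinearGroup.coe_mul, hpow, Matrix.smul_eq_diagonal_mul]
  have hce0 : c ^ e ≠ 0 := zpow_ne_zero e hc0
  have hvce : Valued.v (c ^ e) = WithZero.exp (-e) := by
    rw [map_zpow₀, hc, ← WithZero.exp_zsmul]
    congr 1
    simp
  unfold PT563.iwRegFn563
  refine if_congr ?_ rfl rfl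
  constructor
  · rintro ⟨a, b, c₀, d, ha, hb, hc₀, hd, hx⟩
    refine ⟨a, b, c₀, c ^ e * d, ha, hb, hc₀, ?_, ?_⟩
    · rw [map_mul, hvce, hd]; simp
    · rw [hmat] at hx
      rw [mul_smul, ← hx, smul_smul, mul_inv_cancel₀ hce0, one_smul]
  · rintro ⟨a, b, c₀, d, ha, hb, hc₀, hd, hx⟩
    refine ⟨a, b, c₀, (c ^ e)⁻¹ * d, ha, hb, hc₀, ?_, ?_⟩
    · rw [map_mul, map_inv₀, hvce, hd]
      simp
    · rw [hmat, hx, smul_smul]

end Local

/-! ## 2. The local identity for an Iwahori coset system -/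

section Step

variable (w : HeightOneSpectrum (𝓞 K))

theorem finCompHom_eq_finGL756 (x : G K) : finCompHom129 w x = finGL305 w x :=
  (finGL_eq_finCompHom756 w x).symm

/-- The element `[[π, r], [0, 1]]` at `w`, as an element of `I diag(ϖ, 1) I`. -/
theorem inIwahoriCoset_std756 {π r : w.adicCompletion K}
    (hπ : Valued.v π = WithZero.exp (-1 : ℤ)) (hr : Valued.v r ≤ 1) :
    T5.InIwahoriCoset w 1 (locFin129 w (upperU129 r
      * mkGL129 π 0 0 1 (by simpa using unif_ne_zero129 w hπ))) := by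
  have hπ0 := unif_ne_zero129 w hπ
  refine ⟨locFin129 w (upperU129 r), 1, locFin129 w (mkGL129 π 0 0 1 (by simpa using hπ0)), π,
    ?_, inIwahori_one340 w, ?_, ?_, ?_⟩
  · rw [inIwahori_iff340, finCompHom129_locFin129]
    exact isIwG340_upper hr
  · rw [hπ]; simp
  · rw [finComp_locFin129, coe_mkGL129]
  · exact congrArg (finComp w) ((mul_one _).trans (map_mul _ _ _).symm).symm

open Classical in
/-- **THE LOCAL IDENTITY**: `q^{-1/2} ∑_{h ∈ H} ψ_m (h_w⁻¹ x) = ψ_{m+1} (x)`. -/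
theorem iwReg_step756 {H : Finset (G K)} (hH : IsIwCosetSystem w H) (q : ℕ) (m : ℕ)
    (x : GL (Fin 2) (w.adicCompletion K)) :
    (((Real.sqrt (q : ℝ) : ℝ) : ℂ)⁻¹)
        * ∑ h ∈ H, PT563.iwRegFn563 q 0 m ((finGL305 w h)⁻¹ * x)
      = PT563.iwRegFn563 q 0 (m + 1) x := by
  have hT : ∀ h ∈ H, IsIwT340 (vw340 w) (finGL305 w h) := fun h hh => by
    rw [← finCompHom_eq_finGL756]
    exact isIwT340_of_inIwahoriCoset (hH.2.1 h hh).2
  -- a member with `h_w⁻¹ x` of the shape `m` forces the shape `m + 1`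
  have hup : ∀ h ∈ H, IsSh756 (vw340 w) m
      (((finGL305 w h)⁻¹ * x : GL (Fin 2) (w.adicCompletion K)) :
        Matrix (Fin 2) (Fin 2) (w.adicCompletion K)) →
      IsSh756 (vw340 w) (m + 1) (x : Matrix (Fin 2) (Fin 2) (w.adicCompletion K)) := by
    intro h hh hsh
    have h1 := isSh_mul756 (isSh_of_isIwT756 (hT h hh)) hsh
    rw [← Matrix.GeneralLinearGroup.coe_mul, mul_inv_cancel_left, add_comm] at h1
    exact h1
  simp only [iwRegFn_zero_eq756]
  by_cases hx : IsSh756 (vw340 w) (m + 1) (x : Matrix (Fin 2) (Fin 2) (w.adicCompletion K))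
  · rw [if_pos hx]
    -- existence
    obtain ⟨π, hπ⟩ := exists_unif129 w
    have hπ0 := unif_ne_zero129 w hπ
    obtain ⟨r, y, hr, hy, hxy⟩ := exists_factor_sh756 (v := vw340 w) hπ hx
    obtain ⟨h₀, hh₀, hin, -, -⟩ := iwCosetSystem_complete340 hH (inIwahoriCoset_std756 w hπ hr)
    rw [inIwahori_iff340, map_mul, map_inv, finCompHom129_locFin129,
      finCompHom_eq_finGL756] at hin
    have hg₁ : ((upperU129 r * mkGL129 π 0 0 1 (by simpa using hπ0) :
        GL (Fin 2) (w.adicCompletion K)) : Matrix (Fin 2) (Fin 2) (w.adicCompletion K))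
        = !![π, r; 0, 1] := by
      rw [upper_mul_diag340 hπ0, coe_mkGL129]
    have hP₀ : IsSh756 (vw340 w) m
        (((finGL305 w h₀)⁻¹ * x : GL (Fin 2) (w.adicCompletion K)) :
          Matrix (Fin 2) (Fin 2) (w.adicCompletion K)) := by
      have e : (((finGL305 w h₀)⁻¹ * x : GL (Fin 2) (w.adicCompletion K)) :
          Matrix (Fin 2) (Fin 2) (w.adicCompletion K))
          = (((finGL305 w h₀)⁻¹ * (upperU129 r * mkGL129 π 0 0 1 (by simpa using hπ0)) :
              GL (Fin 2) (w.adicCompletion K)) :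
              Matrix (Fin 2) (Fin 2) (w.adicCompletion K)) * y := by
        rw [Matrix.GeneralLinearGroup.coe_mul, Matrix.GeneralLinearGroup.coe_mul, hg₁,
          Matrix.mul_assoc, ← hxy]
      rw [e]
      exact isSh_zero_mul756 (isSh_of_isIwG756 hin) hy
    -- uniqueness
    have huniq : ∀ h ∈ H, h ≠ h₀ → ¬ IsSh756 (vw340 w) m
        (((finGL305 w h)⁻¹ * x : GL (Fin 2) (w.adicCompletion K)) :
          Matrix (Fin 2) (Fin 2) (w.adicCompletion K)) := by
      intro h hh hne hsh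
      apply hH.2.2 h hh h₀ hh₀ hne
      rw [inIwahori_iff340, map_mul, map_inv, finCompHom_eq_finGL756, finCompHom_eq_finGL756]
      refine isIwG340_inv_mul (hT h hh) (hT h₀ hh₀)
        (val_res_of_factor756 (hT h hh) (hT h₀ hh₀) hsh hP₀ ?_)
      rw [← Matrix.GeneralLinearGroup.coe_mul, ← Matrix.GeneralLinearGroup.coe_mul,
        mul_inv_cancel_left, mul_inv_cancel_left]
    rw [Finset.sum_eq_single h₀ (fun h hh hne => if_neg (huniq h hh hne))
      (fun hnot => absurd hh₀ hnot), if_pos hP₀, pow_succ']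
  · rw [if_neg hx, Finset.sum_eq_zero (fun h hh => if_neg (fun hsh => hx (hup h hh hsh))),
      mul_zero]

end Step

/-! ## 3. The abstract form of the leaf -/

theorem isLocalAtFin_zpow756 {w : HeightOneSpectrum (𝓞 K)} {z : G K} (hz : IsLocalAtFin w z)
    (e : ℤ) : IsLocalAtFin w (z ^ e) := by
  refine ⟨fun w' => ?_, fun v hv => ?_⟩
  · rw [trivAtInf_iff_infGL756, map_zpow, (trivAtInf_iff_infGL756 w' z).1 (hz.1 w'), one_zpow]
  · rw [trivAtFin_iff_finGL756, map_zpow, (trivAtFin_iff_finGL756 v z).1 (hz.2 v hv), one_zpow]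

/-- **The abstract form**: for a functional `E ψ y = ψ (y_w) · rest y` with `rest` left
invariant under the elements supported at `w`. -/
theorem regL_abs756 {w : HeightOneSpectrum (𝓞 K)} {z : G K} {H : Finset (G K)}
    (hH : IsIwCosetSystem w H) (hz : IsScalarUniformizerAt w z)
    (E : (GL (Fin 2) (w.adicCompletion K) → ℂ) → G K → ℂ) (rest : G K → ℂ)
    (hE : ∀ ψ y, E ψ y = ψ (finGL305 w y) * rest y)
    (hrest : ∀ h y : G K, IsLocalAtFin w h → rest (h⁻¹ * y) = rest y) (e : ℤ) (m : ℕ)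
    (y : G K) :
    regL w z H e m (E iwFn893) y
      = E (PT563.iwRegFn563 (Ideal.absNorm w.asIdeal) e m) y := by
  have hiter : ∀ (m : ℕ) (y : G K), ((iwL w H)^[m] (E iwFn893)) y
      = PT563.iwRegFn563 (Ideal.absNorm w.asIdeal) 0 m (finGL305 w y) * rest y := by
    intro m
    induction m with
    | zero =>
      intro y
      rw [Function.iterate_zero, id, hE, iwRegFn_zero_zero756]
    | succ m ih =>
      intro y
      rw [Function.iterate_succ_apply']
      show ((Real.sqrt (Ideal.absNorm w.asIdeal : ℝ) : ℝ) : ℂ)⁻¹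
        * ∑ h ∈ H, ((iwL w H)^[m] (E iwFn893)) (h⁻¹ * y) = _
      have hsum : ∀ h ∈ H, ((iwL w H)^[m] (E iwFn893)) (h⁻¹ * y)
          = PT563.iwRegFn563 (Ideal.absNorm w.asIdeal) 0 m
              ((finGL305 w h)⁻¹ * finGL305 w y) * rest y := by
        intro h hh
        rw [ih, map_mul, map_inv, hrest h y (hH.2.1 h hh).1]
      rw [Finset.sum_congr rfl hsum, ← Finset.sum_mul, ← mul_assoc, iwReg_step756 w hH]
  obtain ⟨hzloc, c, hc, hzc⟩ := hz
  show ((iwL w H)^[m] (E iwFn893)) ((z ^ e)⁻¹ * y) = _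
  rw [hiter, hE, hrest _ y (isLocalAtFin_zpow756 hzloc e), map_mul, map_inv, map_zpow,
    iwReg_shift756 _ m e hc (s := finGL305 w z) (by rw [coe_finGL756]; exact hzc)]

/-! ## 4. Pure tensors -/

section Pure

variable [DecidableEq (HeightOneSpectrum (𝓞 K))]

open Classical in
/-- The part of a pure tensor outside `w`. -/
def rest756 (T : Finset (HeightOneSpectrum (𝓞 K))) (w : HeightOneSpectrum (𝓞 K))
    (f₀ : ∀ v : HeightOneSpectrum (𝓞 K), GL (Fin 2) (v.adicCompletion K) → ℂ)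
    (A : G K → ℂ) (y : G K) : ℂ :=
  if OutT305 T y then (∏ v ∈ T.erase w, f₀ v (finGL305 v y)) * A y else 0

theorem prod_update756 {T : Finset (HeightOneSpectrum (𝓞 K))} {w : HeightOneSpectrum (𝓞 K)}
    (hw : w ∈ T)
    (f₀ : ∀ v : HeightOneSpectrum (𝓞 K), GL (Fin 2) (v.adicCompletion K) → ℂ)
    (ψ : GL (Fin 2) (w.adicCompletion K) → ℂ) (y : G K) :
    (∏ v ∈ T, Function.update f₀ w ψ v (finGL305 v y))
      = ψ (finGL305 w y) * ∏ v ∈ T.erase w, f₀ v (finGL305 v y) := by
  rw [← Finset.mul_prod_erase T _ hw, Function.update_self]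
  congr 1
  refine Finset.prod_congr rfl fun v hv => ?_
  rw [Function.update_of_ne (Finset.ne_of_mem_erase hv)]

theorem rest_tr756 {T : Finset (HeightOneSpectrum (𝓞 K))} {w : HeightOneSpectrum (𝓞 K)}
    (hw : w ∈ T)
    (f₀ : ∀ v : HeightOneSpectrum (𝓞 K), GL (Fin 2) (v.adicCompletion K) → ℂ)
    (A : G K → ℂ) (hA : ∀ h y : G K, IsLocalAtFin w h → A (h⁻¹ * y) = A y)
    (h y : G K) (hh : IsLocalAtFin w h) :
    rest756 T w f₀ A (h⁻¹ * y) = rest756 T w f₀ A y := by
  have htriv : ∀ v : HeightOneSpectrum (𝓞 K), v ≠ w → finGL305 v h = 1 := fun v hv =>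
    (trivAtFin_iff_finGL756 v h).1 (hh.2 v hv)
  have hout : OutT305 T (h⁻¹ * y) ↔ OutT305 T y := by
    refine outT_inv_mul_iff756 (fun v hv => ?_) y
    rw [htriv v (fun e => hv (e ▸ hw))]
    exact T6.H777.inU_one777 0
  unfold rest756
  by_cases hy : OutT305 T y
  · rw [if_pos hy, if_pos (hout.2 hy), hA h y hh]
    congr 1
    refine Finset.prod_congr rfl fun v hv => ?_
    rw [map_mul, map_inv, htriv v (Finset.ne_of_mem_erase hv), inv_one, one_mul]
  · rw [if_neg hy, if_neg (fun h' => hy (hout.1 h'))]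

end Pure

/-- **LEAF T7.PT.6 `RegLPureC563`.** -/
theorem regLPureC756 (K : Type) [Field K] [NumberField K] : PT563.RegLPureC563 K := by
  classical
  intro w z H hH hz T hw f₀ F hf₀ e m y
  have hE : ∀ (ψ : GL (Fin 2) (w.adicCompletion K) → ℂ) (y : G K),
      pure305 T (Function.update f₀ w ψ) F y
        = ψ (finGL305 w y)
          * rest756 T w f₀ (fun y => ∏ w' : InfinitePlace K, F w' (infGL305 w' y)) y := by
    intro ψ y
    unfold pure305 rest756
    by_cases hy : OutT305 T y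
    · rw [if_pos hy, if_pos hy, prod_update756 hw, mul_assoc]
    · rw [if_neg hy, if_neg hy, mul_zero]
  have hA : ∀ h y : G K, IsLocalAtFin w h →
      (fun y => ∏ w' : InfinitePlace K, F w' (infGL305 w' y)) (h⁻¹ * y)
        = (fun y => ∏ w' : InfinitePlace K, F w' (infGL305 w' y)) y := by
    intro h y hh
    refine Finset.prod_congr rfl fun w' _ => ?_
    rw [map_mul, map_inv, (trivAtInf_iff_infGL756 w' h).1 (hh.1 w'), inv_one, one_mul]
  have h0 : pure305 T f₀ F = pure305 T (Function.update f₀ w iwFn893) F := by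
    rw [← hf₀, Function.update_eq_self]
  rw [h0]
  exact regL_abs756 hH hz (fun ψ => pure305 T (Function.update f₀ w ψ) F) _ hE
    (fun h y hh => rest_tr756 hw f₀ _ hA h y hh) e m y

/-- An element supported at a finite place is trivial at the real place of `ℚ`. -/
theorem reGLQ_eq_one756 {w : HeightOneSpectrum (𝓞 ℚ)} {h : G ℚ} (hh : IsLocalAtFin w h) :
    reGLQ298 h = 1 := by
  apply Units.ext
  ext i j
  show reHomQ298 ((h : Matrix (Fin 2) (Fin 2) (Adl ℚ)) i j) = _
  have h1 := hh.1 Rat.infinitePlace i j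
  show (InfinitePlace.Completion.extensionEmbeddingOfIsReal Rat.isReal_infinitePlace)
    (((h : Matrix (Fin 2) (Fin 2) (Adl ℚ)) i j).1 Rat.infinitePlace) = _
  rw [h1]
  by_cases hij : i = j
  · subst hij; simp
  · simp [Matrix.one_apply, hij]

/-- **LEAF T7.PT.6Q `RegLPureQC563`.** -/
theorem regLPureQC756 : PT563.RegLPureQC563 := by
  classical
  intro w z H hH hz T hw f₀ F hf₀ e m y
  have hE : ∀ (ψ : GL (Fin 2) (w.adicCompletion ℚ) → ℂ) (y : G ℚ),
      pureQ298 T (Function.update f₀ w ψ) F y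
        = ψ (finGL305 w y) * rest756 T w f₀ (fun y => F (reGLQ298 y)) y := by
    intro ψ y
    unfold pureQ298 rest756
    by_cases hy : OutT305 T y
    · rw [if_pos hy, if_pos hy, prod_update756 hw, mul_assoc]
    · rw [if_neg hy, if_neg hy, mul_zero]
  have hA : ∀ h y : G ℚ, IsLocalAtFin w h →
      (fun y => F (reGLQ298 y)) (h⁻¹ * y) = (fun y => F (reGLQ298 y)) y := by
    intro h y hh
    show F (reGLQ298 (h⁻¹ * y)) = F (reGLQ298 y)
    rw [map_mul, map_inv, reGLQ_eq_one756 hh, inv_one, one_mul]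
  have h0 : pureQ298 T f₀ F = pureQ298 T (Function.update f₀ w iwFn893) F := by
    rw [← hf₀, Function.update_eq_self]
  rw [h0]
  exact regL_abs756 hH hz (fun ψ => pureQ298 T (Function.update f₀ w ψ) F) _ hE
    (fun h y hh => rest_tr756 hw f₀ _ hA h y hh) e m y

end Fermat.Agent.LT.T7.H756

end
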